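import Mathlib

/-!
# S51 / P6: the descent step on `y^2 = x (x - 1) (x - 81)` (height-free, by denominators)

Given the "class lemma + translation" statement `hB` (every rational point with `y ≠ 0` can be
translated by a 2-torsion point to a point `x'` with `x'`, `x' - 1`, `x' - 81` all squares, with the
same double), we show that the curve has no rational point with `y ≠ 0`.
-/

set_option autoImplicit false

namespace Fermat.Agent.S51.ClaimD

/-- A rational number whose square is an integer is an integer. -/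
theorem exists_int_of_sq_eq_int (r : ℚ) (m : ℤ) (h : r ^ 2 = (m : ℚ)) : ∃ z : ℤ, r = (z : ℚ) := by
  have h1 : (r ^ 2).den = 1 := by rw [h]; exact Rat.den_intCast m
  rw [Rat.den_pow] at h1
  have h2 : r.den = 1 := (Nat.pow_eq_one.mp h1).resolve_right (by norm_num)
  exact ⟨r.num, ((Rat.den_eq_one_iff r).mp h2).symm⟩

/-- The integer inequality at the heart of the descent. -/
theorem den_lt (N M X Y Z W : ℤ) (h : N * (2 * X * Y * Z * W) = M * (X ^ 4 - 81 * Y ^ 4))
    (hcop : IsCoprime X Y) (hM : 0 < M) (hY : 0 < Y)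
    (hZ : X ^ 2 - Y ^ 2 = Z ^ 2) (hW : X ^ 2 - 81 * Y ^ 2 = W ^ 2) : Y < M := by
  have hcop2 : IsCoprime Y (X ^ 4 - 81 * Y ^ 4) := by
    have h1 : IsCoprime Y (X ^ 4) := hcop.symm.pow_right
    have h2 : IsCoprime Y (X ^ 4 + Y * (-81 * Y ^ 3)) := h1.add_mul_left_right _
    have e : X ^ 4 + Y * (-81 * Y ^ 3) = X ^ 4 - 81 * Y ^ 4 := by ring
    rwa [e] at h2
  have hdvd : Y ∣ M * (X ^ 4 - 81 * Y ^ 4) := by
    rw [← h]; exact ⟨N * (2 * X * Z * W), by ring⟩
  have hYM : Y ∣ M := hcop2.dvd_of_dvd_mul_right hdvd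
  have hle : Y ≤ M := Int.le_of_dvd hM hYM
  rcases lt_or_eq_of_le hle with hlt | heq
  · exact hlt
  exfalso
  subst heq
  -- cancel Y
  have h' : N * (2 * X * Z * W) = X ^ 4 - 81 * Y ^ 4 := by
    have hY0 : Y ≠ 0 := ne_of_gt hY
    apply mul_left_cancel₀ hY0
    linear_combination h
  have hX81 : X ∣ 81 * Y ^ 4 := by
    have : X ∣ X ^ 4 - (X ^ 4 - 81 * Y ^ 4) := by
      apply dvd_sub
      · exact ⟨X ^ 3, by ring⟩
      · rw [← h']; exact ⟨N * (2 * Z * W), by ring⟩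
    have e : X ^ 4 - (X ^ 4 - 81 * Y ^ 4) = 81 * Y ^ 4 := by ring
    rwa [e] at this
  have hX81' : X ∣ 81 := by
    have hc : IsCoprime X (Y ^ 4) := hcop.pow_right
    exact hc.dvd_of_dvd_mul_right hX81
  -- X^2 ≥ 81
  have hXsq : 81 ≤ X ^ 2 := by nlinarith [sq_nonneg W, hY]
  have h3X : (3 : ℤ) ∣ X := by
    have hn : X.natAbs ∣ 3 ^ 4 := by
      have : X.natAbs ∣ (81 : ℤ).natAbs := Int.natAbs_dvd_natAbs.mpr hX81'
      simpa using this
    obtain ⟨k, hk, hXk⟩ := (Nat.dvd_prime_pow Nat.prime_three).mp hn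
    rcases Nat.eq_zero_or_pos k with hk0 | hkpos
    · exfalso
      rw [hk0, pow_zero] at hXk
      have : X ^ 2 = 1 := by
        have := Int.natAbs_pow_two X
        rw [← Int.natAbs_sq, hXk]; norm_num
      omega
    · have : (3 : ℕ) ∣ X.natAbs := by
        rw [hXk]; exact dvd_pow_self 3 (Nat.pos_iff_ne_zero.mp hkpos)
      exact Int.natCast_dvd.mpr this
  have h3Y : (3 : ℤ) ∣ Y := by
    have hmod : ((X : ZMod 3)) = 0 := (ZMod.intCast_zmod_eq_zero_iff_dvd X 3).mpr h3X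
    have hz : ((X ^ 2 - Y ^ 2 : ℤ) : ZMod 3) = ((Z ^ 2 : ℤ) : ZMod 3) := by rw [hZ]
    push_cast at hz
    rw [hmod] at hz
    have : (Y : ZMod 3) = 0 := by
      generalize (Y : ZMod 3) = y at hz
      generalize (Z : ZMod 3) = z at hz
      revert y z
      decide
    exact (ZMod.intCast_zmod_eq_zero_iff_dvd Y 3).mp this
  have : IsUnit (3 : ℤ) := hcop.isUnit_of_dvd' h3X h3Y
  rw [Int.isUnit_iff] at this
  omega

/-- No rational `a` with `a^2 - 1` and `a^2 - 81` both squares (descent on the denominator). -/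
theorem no_triple
    (hB : ∀ x y : ℚ, y ^ 2 = x * (x - 1) * (x - 81) → y ≠ 0 →
      ∃ x' : ℚ, x' ≠ 0 ∧ x' ≠ 1 ∧ x' ≠ 81 ∧ IsSquare x' ∧ IsSquare (x' - 1) ∧ IsSquare (x' - 81) ∧
        (x' ^ 2 - 81) ^ 2 / (4 * (x' * (x' - 1) * (x' - 81)))
          = (x ^ 2 - 81) ^ 2 / (4 * (x * (x - 1) * (x - 81)))) :
    ∀ (n : ℕ) (a b c : ℚ), a.den = n → a ^ 2 - 1 = b ^ 2 → a ^ 2 - 81 = c ^ 2 → False := by
  intro n
  induction n using Nat.strong_induction_on with
  | _ n ih =>
    intro a b c han hb hc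
    -- the half point
    have hab : a + b ≠ 0 := by
      intro h0
      have : (a + b) * (a - b) = 1 := by linear_combination hb
      rw [h0] at this; simp at this
    have hac : a + c ≠ 0 := by
      intro h0
      have : (a + c) * (a - c) = 81 := by linear_combination hc
      rw [h0] at this; simp at this
    have hbc : b + c ≠ 0 := by
      intro h0
      have : (b + c) * (b - c) = 80 := by linear_combination hc - hb
      rw [h0] at this; simp at this
    set xQ := (a + b) * (a + c) with hxQ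
    set yQ := (a + b) * (a + c) * (b + c) with hyQ
    have hyQ0 : yQ ≠ 0 := mul_ne_zero (mul_ne_zero hab hac) hbc
    have hx1 : xQ - 1 = (a + b) * (b + c) := by rw [hxQ]; linear_combination hb
    have hx81 : xQ - 81 = (a + c) * (b + c) := by rw [hxQ]; linear_combination hc
    have hQ : yQ ^ 2 = xQ * (xQ - 1) * (xQ - 81) := by
      rw [hx1, hx81, hyQ, hxQ]; ring
    have hd : xQ ^ 2 - 81 = 2 * a * yQ := by
      rw [hyQ, hxQ]
      linear_combination (-c ^ 2 + a ^ 2) * hb + hc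
    obtain ⟨x', hx'0, hx'1, hx'81, ⟨a', ha'⟩, ⟨b', hb'⟩, ⟨c', hc'⟩, hdup⟩ := hB xQ yQ hQ hyQ0
    have ha'0 : a' ≠ 0 := by rintro rfl; apply hx'0; rw [ha']; ring
    have hb'0 : b' ≠ 0 := by
      rintro rfl; apply hx'1; linear_combination hb'
    have hc'0 : c' ≠ 0 := by
      rintro rfl; apply hx'81; linear_combination hc'
    have hb'' : a' ^ 2 - 1 = b' ^ 2 := by linear_combination hb' - ha'
    have hc'' : a' ^ 2 - 81 = c' ^ 2 := by linear_combination hc' - ha'
    -- the doubling relation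
    have hrel : (a' ^ 4 - 81) ^ 2 = (2 * a * a' * b' * c') ^ 2 := by
      have hne1 : (4 * (x' * (x' - 1) * (x' - 81))) ≠ 0 := by
        have h1 : x' - 1 ≠ 0 := sub_ne_zero.mpr hx'1
        have h2 : x' - 81 ≠ 0 := sub_ne_zero.mpr hx'81
        positivity
      have hne2 : (4 * (xQ * (xQ - 1) * (xQ - 81))) ≠ 0 := by
        rw [← hQ]; positivity
      rw [div_eq_div_iff hne1 hne2] at hdup
      rw [← hQ, hd] at hdup
      have e1 : x' ^ 2 - 81 = a' ^ 4 - 81 := by rw [ha']; ring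
      have e2 : x' * (x' - 1) * (x' - 81) = a' ^ 2 * b' ^ 2 * c' ^ 2 := by
        rw [hb', hc', ha']; ring
      rw [e1, e2] at hdup
      have hy2 : yQ ^ 2 ≠ 0 := pow_ne_zero _ hyQ0
      apply mul_left_cancel₀ hy2
      linear_combination (1 / 4 : ℚ) * hdup
    -- integer data for a'
    set X : ℤ := a'.num with hX
    set Y : ℤ := (a'.den : ℤ) with hY
    have hYpos : 0 < Y := by rw [hY]; exact_mod_cast a'.den_pos
    have hY0 : (Y : ℚ) ≠ 0 := by exact_mod_cast (ne_of_gt hYpos)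
    have ha'XY : a' = (X : ℚ) / (Y : ℚ) := by
      rw [hX, hY]; exact (Rat.num_div_den a').symm
    have ha'Y : a' * Y = X := by rw [ha'XY]; field_simp
    obtain ⟨Z, hZ⟩ := exists_int_of_sq_eq_int (b' * Y) (X ^ 2 - Y ^ 2) (by
      push_cast; rw [← ha'Y]; linear_combination (-(Y:ℚ)^2) * hb'')
    obtain ⟨W, hW⟩ := exists_int_of_sq_eq_int (c' * Y) (X ^ 2 - 81 * Y ^ 2) (by
      push_cast; rw [← ha'Y]; linear_combination (-(Y:ℚ)^2) * hc'')
    have hZ' : X ^ 2 - Y ^ 2 = Z ^ 2 := by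
      have : ((X ^ 2 - Y ^ 2 : ℤ) : ℚ) = ((Z ^ 2 : ℤ) : ℚ) := by
        push_cast; rw [← hZ, ← ha'Y]; linear_combination ((Y:ℚ)^2) * hb''
      exact_mod_cast this
    have hW' : X ^ 2 - 81 * Y ^ 2 = W ^ 2 := by
      have : ((X ^ 2 - 81 * Y ^ 2 : ℤ) : ℚ) = ((W ^ 2 : ℤ) : ℚ) := by
        push_cast; rw [← hW, ← ha'Y]; linear_combination ((Y:ℚ)^2) * hc''
      exact_mod_cast this
    have hcop : IsCoprime X Y := by
      rw [Int.isCoprime_iff_gcd_eq_one, hX, hY]
      have := a'.reduced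
      simpa [Int.gcd, Nat.Coprime] using this
    -- integer form of the doubling relation
    set N : ℤ := a.num with hN
    set M : ℤ := (a.den : ℤ) with hM
    have hMpos : 0 < M := by rw [hM]; exact_mod_cast a.den_pos
    have hM0 : (M : ℚ) ≠ 0 := by exact_mod_cast (ne_of_gt hMpos)
    have haNM : a * M = N := by
      rw [hN, hM]
      exact_mod_cast Rat.mul_den_eq_num a
    have hrelZ : (M * (X ^ 4 - 81 * Y ^ 4)) ^ 2 = (N * (2 * X * Y * Z * W)) ^ 2 := by
      have : (((M * (X ^ 4 - 81 * Y ^ 4)) ^ 2 : ℤ) : ℚ) = (((N * (2 * X * Y * Z * W)) ^ 2 : ℤ) : ℚ) := by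
        push_cast
        rw [← haNM, ← hZ, ← hW, ← ha'Y]
        linear_combination ((M:ℚ) ^ 2 * (Y:ℚ) ^ 8) * hrel
      exact_mod_cast this
    have hlt : Y < M := by
      rcases sq_eq_sq_iff_eq_or_eq_neg.mp hrelZ with h | h
      · exact den_lt N M X Y Z W h.symm hcop hMpos hYpos hZ' hW'
      · exact den_lt (-N) M X Y Z W (by linear_combination -h) hcop hMpos hYpos hZ' hW'
    have hlt' : a'.den < n := by
      rw [← han]
      have : ((a'.den : ℤ)) < ((a.den : ℤ)) := hlt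
      exact_mod_cast this
    exact ih a'.den hlt' a' b' c' rfl hb'' hc''

/-- (EC) from (B). -/
theorem EC_descent_of_B
    (hB : ∀ x y : ℚ, y ^ 2 = x * (x - 1) * (x - 81) → y ≠ 0 →
      ∃ x' : ℚ, x' ≠ 0 ∧ x' ≠ 1 ∧ x' ≠ 81 ∧ IsSquare x' ∧ IsSquare (x' - 1) ∧ IsSquare (x' - 81) ∧
        (x' ^ 2 - 81) ^ 2 / (4 * (x' * (x' - 1) * (x' - 81)))
          = (x ^ 2 - 81) ^ 2 / (4 * (x * (x - 1) * (x - 81)))) :
    ∀ x y : ℚ, y ^ 2 = x * (x - 1) * (x - 81) → y = 0 := by
  intro x y h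
  by_contra hy
  obtain ⟨x', -, -, -, ⟨a', ha'⟩, ⟨b', hb'⟩, ⟨c', hc'⟩, -⟩ := hB x y h hy
  exact no_triple hB a'.den a' b' c' rfl (by linear_combination hb' - ha')
    (by linear_combination hc' - ha')

end Fermat.Agent.S51.ClaimD
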