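import Mathlib

set_option autoImplicit false

namespace Fermat.Agent.S51.Core

/-- Normalised relations: `R1 : (B4+2e)^2 = e (be^2 - 16 e)` (the b-relation) and
`R2 : psi3(p) = 0` in coordinates centred at the midpoint of the 5-kernel. -/
theorem norm_i1 (be B4 e p : ℚ) (hR1 : (B4 + 2 * e) ^ 2 = e * (be ^ 2 - 16 * e))
    (hR2 : 3 * p ^ 4 + be * p ^ 3 + 3 * B4 * p ^ 2 + 3 * be * e * p + 5 * e ^ 2 + B4 * e = 0) :
    (6 * p ^ 2 + be * p + B4) ^ 3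
      = 32 * e ^ 2 * (B4 - 20 * e) + 27 * (4 * p ^ 3 + be * p ^ 2 + 2 * B4 * p + be * e) ^ 2 := by
  linear_combination (3 * be * p + B4 + 32 * e + 18 * p^2) * hR1 + (be^2 - 12 * be * p - 36 * B4 - 72 * p^2) * hR2

theorem norm_i2 (be B4 e p : ℚ) (hR1 : (B4 + 2 * e) ^ 2 = e * (be ^ 2 - 16 * e))
    (hR2 : 3 * p ^ 4 + be * p ^ 3 + 3 * B4 * p ^ 2 + 3 * be * e * p + 5 * e ^ 2 + B4 * e = 0) :
    (be ^ 2 - 24 * B4) * (4 * p ^ 3 + be * p ^ 2 + 2 * B4 * p + be * e) ^ 2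
      = (6 * p ^ 2 + be * p + B4) *
        (32 * e ^ 2 * (B4 - 20 * e) + 3 * (4 * p ^ 3 + be * p ^ 2 + 2 * B4 * p + be * e) ^ 2) := by
  linear_combination (-be^2 * e + be^2 * p^2 - 4 * be * e * p + 24 * B4 * e - 36 * B4 * p^2 - 40 * e^2 + 192 * e * p^2) * hR1 + (be^3 * p + be^2 * B4 - 4 * be^2 * e + 2 * be^2 * p^2 - 32 * be * B4 * p + 48 * be * e * p - 32 * be * p^3 - 24 * B4^2 + 32 * B4 * e - 144 * B4 * p^2 + 160 * e^2 - 96 * p^4) * hR2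

theorem norm_star (be B4 e p : ℚ) (hR1 : (B4 + 2 * e) ^ 2 = e * (be ^ 2 - 16 * e))
    (hR2 : 3 * p ^ 4 + be * p ^ 3 + 3 * B4 * p ^ 2 + 3 * be * e * p + 5 * e ^ 2 + B4 * e = 0) :
    (B4 - 20 * e) ^ 2 * (p ^ 2 - e) ^ 5 * (p ^ 2 - 5 * e)
      - 10 * e * (B4 - 20 * e) * (4 * p ^ 3 + be * p ^ 2 + 2 * B4 * p + be * e) ^ 2 * (p ^ 2 - e) ^ 3
      - 9 * e * (p ^ 2 - e) * (4 * p ^ 3 + be * p ^ 2 + 2 * B4 * p + be * e) ^ 4
      - 4 * e ^ 2 * (4 * p ^ 3 + be * p ^ 2 + 2 * B4 * p + be * e) ^ 4 = 0 := by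
  linear_combination (-(1/6561) * be^9 * e * p - (1/19683) * be^9 * p^3 - (1/19683) * be^8 * B4 * e - (1/6561) * be^8 * B4 * p^2 - (5/19683) * be^8 * e^2 + (1/2187) * be^8 * e * p^2 + (64/6561) * be^7 * B4 * e * p + (8/2187) * be^7 * B4 * p^3 + (158/6561) * be^7 * e^2 * p + (14/2187) * be^7 * e * p^3 + (7/2187) * be^6 * B4^2 * e + (7/729) * be^6 * B4^2 * p^2 + (52/2187) * be^6 * B4 * e^2 - (4/2187) * be^6 * B4 * e * p^2 + (85/2187) * be^6 * e^3 - (185/2187) * be^6 * e^2 * p^2 - (47/243) * be^5 * B4^2 * e * p - (7/81) * be^5 * B4^2 * p^3 - (1304/729) * be^5 * B4 * e^2 * p - (16/27) * be^5 * B4 * e * p^3 + (2936/729) * be^5 * e^3 * p + (136/81) * be^5 * e^2 * p^3 - (5/81) * be^4 * B4^3 * e - (5/27) * be^4 * B4^3 * p^2 - (643/729) * be^4 * B4^2 * e^2 - (323/243) * be^4 * B4^2 * e * p^2 - (1078/729) * be^4 * B4 * e^3 + (2218/243) * be^4 * B4 * e^2 * p^2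 + (5060/729) * be^4 * e^4 - (2204/243) * be^4 * e^3 * p^2 + (100/81) * be^3 * B4^3 * e * p + (20/27) * be^3 * B4^3 * p^3 + (7475/243) * be^3 * B4^2 * e^2 * p + (1099/81) * be^3 * B4^2 * e * p^3 - (14800/243) * be^3 * B4 * e^3 * p - (400/9) * be^3 * B4 * e^2 * p^3 - (13072/243) * be^3 * e^4 * p + (368/81) * be^3 * e^3 * p^3 + (10/27) * be^2 * B4^4 * e + (10/9) * be^2 * B4^4 * p^2 + (307/27) * be^2 * B4^3 * e^2 + 27 * be^2 * B4^3 * e * p^2 + (694/27) * be^2 * B4^2 * e^3 - (3310/27) * be^2 * B4^2 * e^2 * p^2 - (3296/27) * be^2 * B4 * e^4 - (160/27) * be^2 * B4 * e^3 * p^2 - (1840/27) * be^2 * e^5 + (9968/27) * be^2 * e^4 * p^2 - (13/9) * be * B4^4 * e * p - (5/3) * be * B4^4 * p^3 - (796/9) * be * B4^3 * e^2 * p - (220/3) * be * B4^3 * e * p^3 - (7580/27) * be * B4^2 * e^3 * p + (172/3) * be * B4^2 * e^2 * p^3 + (4480/27) * be * B4 * e^4 * p + (1664/3)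 * be * B4 * e^3 * p^3 + (20800/27) * be * e^5 * p + 320 * be * e^4 * p^3 - (1/3) * B4^5 * e - B4^5 * p^2 - (74/3) * B4^4 * e^2 - (206/3) * B4^4 * e * p^2 - (4996/27) * B4^3 * e^3 - (556/3) * B4^3 * e^2 * p^2 - (3160/9) * B4^2 * e^4 + (1336/9) * B4^2 * e^3 * p^2 + (160/3) * B4 * e^5 + (6304/9) * B4 * e^4 * p^2 + (11200/27) * e^6 + (3520/9) * e^5 * p^2) * hR1 + (-(1/19683) * be^10 * e + (1/6561) * be^9 * e * p + (1/19683) * be^8 * B4^2 + (67/19683) * be^8 * B4 * e + (173/19683) * be^8 * e^2 - (1/2187) * be^8 * e * p^2 - (1/6561) * be^7 * B4^2 * p - (58/6561) * be^7 * B4 * e * p - (200/6561) * be^7 * e^2 * p + (1/729) * be^7 * e * p^3 - (7/2187) * be^6 * B4^3 - (20/243) * be^6 * B4^2 * e + (1/2187) * be^6 * B4^2 * p^2 - (1462/2187) * be^6 * B4 * e^2 + (49/2187) * be^6 * B4 * e * p^2 + (2696/2187) * be^6 * e^3 + (227/2187) * be^6 * e^2 * p^2 - (1/243)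 * be^6 * e * p^4 + (2/243) * be^5 * B4^3 * p + (134/729) * be^5 * B4^2 * e * p - (1/729) * be^5 * B4^2 * p^3 + (1358/729) * be^5 * B4 * e^2 * p - (40/729) * be^5 * B4 * e * p^3 - (1919/729) * be^5 * e^3 * p - (254/729) * be^5 * e^2 * p^3 + (1/81) * be^5 * e * p^5 + (5/81) * be^4 * B4^4 + (868/729) * be^4 * B4^3 * e - (5/243) * be^4 * B4^3 * p^2 + (2833/243) * be^4 * B4^2 * e^2 - (97/243) * be^4 * B4^2 * e * p^2 + (1/243) * be^4 * B4^2 * p^4 - (11645/729) * be^4 * B4 * e^3 - (400/81) * be^4 * B4 * e^2 * p^2 + (31/243) * be^4 * B4 * e * p^4 - (29447/729) * be^4 * e^4 + (1061/243) * be^4 * e^3 * p^2 + (281/243) * be^4 * e^2 * p^4 - (1/27) * be^4 * e * p^6 - (10/81) * be^3 * B4^4 * p - (614/243) * be^3 * B4^3 * e * p + (4/81) * be^3 * B4^3 * p^3 - (1852/81) * be^3 * B4^2 * e^2 * p + (23/27) * be^3 * B4^2 * e * p^3 - (1/81) * be^3 * B4^2 * p^5 - (866/243)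 * be^3 * B4 * e^3 * p + (988/81) * be^3 * B4 * e^2 * p^3 - (22/81) * be^3 * B4 * e * p^5 + (43720/243) * be^3 * e^4 * p - (1904/81) * be^3 * e^3 * p^3 - (632/81) * be^3 * e^2 * p^5 - (80/9) * be^3 * e * p^7 - (10/27) * be^2 * B4^5 - (34/3) * be^2 * B4^4 * e + (2/9) * be^2 * B4^4 * p^2 - (1258/27) * be^2 * B4^3 * e^2 + (145/27) * be^2 * B4^3 * e * p^2 - (1/9) * be^2 * B4^3 * p^4 - (1442/9) * be^2 * B4^2 * e^3 + (341/9) * be^2 * B4^2 * e^2 * p^2 - (50/27) * be^2 * B4^2 * e * p^4 + (1/27) * be^2 * B4^2 * p^6 + (13294/27) * be^2 * B4 * e^4 + (3634/27) * be^2 * B4 * e^3 * p^2 - (1262/27) * be^2 * B4 * e^2 * p^4 - (1202/27) * be^2 * B4 * e * p^6 + (2840/9) * be^2 * e^5 + (1000/27) * be^2 * e^4 * p^2 - (3976/27) * be^2 * e^3 * p^4 + (632/27) * be^2 * e^2 * p^6 - (352/3) * be^2 * e * p^8 + (4/9) * be * B4^5 * p + 19 * be * B4^4 * e * p - (1/3) * be * B4^4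 * p^3 + (1682/27) * be * B4^3 * e^2 * p - (304/27) * be * B4^3 * e * p^3 + (2/9) * be * B4^3 * p^5 + (1721/9) * be * B4^2 * e^3 * p - (103/9) * be * B4^2 * e^2 * p^3 - (689/9) * be * B4^2 * e * p^5 - (1/9) * be * B4^2 * p^7 - (20920/27) * be * B4 * e^4 * p + (248/27) * be * B4 * e^3 * p^3 + (344/3) * be * B4 * e^2 * p^5 - (3496/9) * be * B4 * e * p^7 - (62800/27) * be * e^5 * p + (22640/27) * be * e^4 * p^3 - (2960/9) * be * e^3 * p^5 + (3760/9) * be * e^2 * p^7 - 512 * be * e * p^9 + (1/3) * B4^6 + (73/3) * B4^5 * e - (1/3) * B4^5 * p^2 + (4555/27) * B4^4 * e^2 - (220/9) * B4^4 * e * p^2 + (1/3) * B4^4 * p^4 + (20009/27) * B4^3 * e^3 - (1213/9) * B4^3 * e^2 * p^2 - (211/9) * B4^3 * e * p^4 - (1/3) * B4^3 * p^6 + (36355/27) * B4^2 * e^4 - (8218/9) * B4^2 * e^3 * p^2 + (1540/3) * B4^2 * e^2 * p^4 - 374 * B4^2 * e * p^6 + (1/3) * B4^2 * p^8 - (1000/3)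 * B4 * e^5 - (12800/9) * B4 * e^4 * p^2 + (2480/9) * B4 * e^3 * p^4 + (2528/3) * B4 * e^2 * p^6 - (2504/3) * B4 * e * p^8 - (34000/27) * e^6 - (32800/9) * e^5 * p^2 + (46400/9) * e^4 * p^4 - (9760/3) * e^3 * p^6 + (4880/3) * e^2 * p^8 - 768 * e * p^10) * hR2

end Fermat.Agent.S51.Core
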