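import Mathlib
import Fermat.Agent.S51.CoreIdent

set_option autoImplicit false

namespace Fermat.Agent.S51.Core

/-- The core algebraic step in normalised coordinates. `hEB` is the list of rational points of
`Y^2 = X (X+9) (X-16)` (the curve 15a1 = X_0(15)). -/
theorem core_norm
    (hEB : ∀ X Y : ℚ, Y ^ 2 = X * (X + 9) * (X - 16) →
      X = 0 ∨ X = -9 ∨ X = 16 ∨ X = 36 ∨ X = -4)
    (be B4 e p : ℚ) (he : e ≠ 0) (hΔ : 32 * e ^ 2 * (B4 - 20 * e) ≠ 0)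
    (hR1 : (B4 + 2 * e) ^ 2 = e * (be ^ 2 - 16 * e))
    (hR2 : 3 * p ^ 4 + be * p ^ 3 + 3 * B4 * p ^ 2 + 3 * be * e * p + 5 * e ^ 2 + B4 * e = 0) :
    ∃ t : ℚ, (t = -2 ∨ t = -32 ∨ t = -729 / 32 ∨ t = -729 / 2) ∧
      (be ^ 2 - 24 * B4) ^ 3 * t = (t + 27) * (t + 3) ^ 3 * (32 * e ^ 2 * (B4 - 20 * e)) := by
  have h1 := norm_i1 be B4 e p hR1 hR2
  have h2 := norm_i2 be B4 e p hR1 hR2
  have hstar := norm_star be B4 e p hR1 hR2
  generalize hF3 : 4 * p ^ 3 + be * p ^ 2 + 2 * B4 * p + be * e = F3 at h1 h2 hstar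
  generalize hD : 32 * e ^ 2 * (B4 - 20 * e) = D at h1 h2 hΔ ⊢
  have hB420 : B4 - 20 * e = D / (32 * e ^ 2) := by
    rw [← hD]; field_simp
  generalize hBp : 6 * p ^ 2 + be * p + B4 = Bp at h1 h2
  -- F3 ≠ 0
  have hF : F3 ≠ 0 := by
    intro h0
    rw [h0] at h1 h2
    have hBD : Bp * D = 0 := by linear_combination -h2
    rcases mul_eq_zero.mp hBD with hb | hd
    · apply hΔ
      rw [hb] at h1
      linear_combination -h1
    · exact hΔ hd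
  -- U ≠ 0
  have hU0 : p ^ 2 - e ≠ 0 := by
    intro h0
    have hp : p ^ 2 = e := by linear_combination h0
    have hp4 : p ^ 4 = e ^ 2 := by rw [show p ^ 4 = (p ^ 2) ^ 2 by ring, hp]
    have hp3 : p ^ 3 = e * p := by rw [show p ^ 3 = p ^ 2 * p by ring, hp]
    have h4 : 4 * e * (2 * e + be * p + B4) = 0 := by
      linear_combination hR2 - 3 * hp4 - be * hp3 - 3 * B4 * hp
    have h5 : 2 * e + be * p + B4 = 0 := by
      rcases mul_eq_zero.mp h4 with h | h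
      · exfalso; apply he; linarith
      · exact h
    have h6 : (B4 + 2 * e) ^ 2 = be ^ 2 * e := by
      have : B4 + 2 * e = -(be * p) := by linear_combination h5
      rw [this, ← hp]; ring
    have h7 : 16 * e ^ 2 = 0 := by linear_combination hR1 - h6
    apply he
    have : e ^ 2 = 0 := by linarith
    exact pow_eq_zero_iff (by norm_num) |>.mp this
  -- the two modular units
  obtain ⟨t, ht⟩ : ∃ t : ℚ, t = D / F3 ^ 2 := ⟨_, rfl⟩
  obtain ⟨U, hU⟩ : ∃ U : ℚ, U = (p ^ 2 - e) / e := ⟨_, rfl⟩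
  have hF2 : F3 ^ 2 ≠ 0 := pow_ne_zero _ hF
  have ht0 : t ≠ 0 := by rw [ht]; exact div_ne_zero hΔ hF2
  have hUne : U ≠ 0 := by rw [hU]; exact div_ne_zero hU0 he
  have htD : t * F3 ^ 2 = D := by rw [ht]; field_simp
  have hUe : U * e = p ^ 2 - e := by rw [hU]; field_simp
  -- (J3)
  have hJ3 : (be ^ 2 - 24 * B4) ^ 3 * t = (t + 27) * (t + 3) ^ 3 * D := by
    have h3 : ((be ^ 2 - 24 * B4) * F3 ^ 2) ^ 3 = (D + 27 * F3 ^ 2) * (D + 3 * F3 ^ 2) ^ 3 := by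
      rw [h2, mul_pow, h1]
    have h4 : F3 ^ 8 * ((be ^ 2 - 24 * B4) ^ 3 * t - (t + 27) * (t + 3) ^ 3 * D) = 0 := by
      have e1 : F3 ^ 8 * ((be ^ 2 - 24 * B4) ^ 3 * t - (t + 27) * (t + 3) ^ 3 * D)
          = ((be ^ 2 - 24 * B4) * F3 ^ 2) ^ 3 * (t * F3 ^ 2)
            - (t * F3 ^ 2 + 27 * F3 ^ 2) * (t * F3 ^ 2 + 3 * F3 ^ 2) ^ 3 * D := by ring
      rw [e1, h3, htD]; ring
    rcases mul_eq_zero.mp h4 with h | h
    · exact absurd h (pow_ne_zero _ hF)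
    · linear_combination h
  -- (**)
  have hss : t ^ 2 * U ^ 5 * (U - 4) = 320 * t * U ^ 3 + 9216 * U + 4096 := by
    have hB : B4 - 20 * e = t * F3 ^ 2 / (32 * e ^ 2) := by rw [htD]; exact hB420
    have hB' : (B4 - 20 * e) * (32 * e ^ 2) = t * F3 ^ 2 := by
      rw [hB]; field_simp
    have hp2 : p ^ 2 - e = U * e := hUe.symm
    have hp5 : p ^ 2 - 5 * e = (U - 4) * e := by linear_combination hp2
    rw [hp2, hp5] at hstar
    have key : (e ^ 6 * F3 ^ 4) *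
        (t ^ 2 * U ^ 5 * (U - 4) - 320 * t * U ^ 3 - 9216 * U - 4096) = 0 := by
      have e1 : (e ^ 6 * F3 ^ 4) *
          (t ^ 2 * U ^ 5 * (U - 4) - 320 * t * U ^ 3 - 9216 * U - 4096)
          = (t * F3 ^ 2) ^ 2 * (U * e) ^ 5 * ((U - 4) * e)
            - 10 * e * (32 * e ^ 2) * (t * F3 ^ 2) * F3 ^ 2 * (U * e) ^ 3
            - 1024 * e ^ 4 * (9 * e * (U * e) * F3 ^ 4)
            - 1024 * e ^ 4 * (4 * e ^ 2 * F3 ^ 4) := by ring
      rw [e1, ← hB']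
      linear_combination (1024 * e ^ 4) * hstar
    rcases mul_eq_zero.mp key with h | h
    · exact absurd h (mul_ne_zero (pow_ne_zero _ he) (pow_ne_zero _ hF))
    · linear_combination h
  -- the point on 15a1
  have hW : (9 * (U * (U ^ 2 * (U - 4) * t - 160) / 32)) ^ 2
      = (9 * U) * (9 * U + 9) * (9 * U - 16) := by
    linear_combination (81 * U * (U - 4) / 1024) * hss
  refine ⟨t, ?_, hJ3⟩
  rcases hEB _ _ hW with h | h | h | h | h
  · exfalso; apply hUne; linarith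
  · have hU1 : U = -1 := by linarith
    rw [hU1] at hss
    have : (t + 32) ^ 2 = 0 := by linear_combination (1 / 5) * hss
    have : t + 32 = 0 := pow_eq_zero_iff (by norm_num) |>.mp this
    right; left; linarith
  · have hU1 : U = 16 / 9 := by linarith
    rw [hU1] at hss
    have : (t + 729 / 32) ^ 2 = 0 := by linear_combination (-531441 / 20971520) * hss
    have : t + 729 / 32 = 0 := pow_eq_zero_iff (by norm_num) |>.mp this
    right; right; left; linarith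
  · have hU1 : U = 4 := by linarith
    rw [hU1] at hss
    left; linarith
  · have hU1 : U = -4 / 9 := by linarith
    rw [hU1] at hss
    have h0 : t * (t + 729 / 2) = 0 := by linear_combination (531441 / 40960) * hss
    rcases mul_eq_zero.mp h0 with h | h
    · exact absurd h ht0
    · right; right; right; linarith

end Fermat.Agent.S51.Core

namespace Fermat.Agent.S51.Core

/-- Un-normalised version of `core_norm`, in terms of the `b`-invariants. -/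
theorem core_alg
    (hEB : ∀ X Y : ℚ, Y ^ 2 = X * (X + 9) * (X - 16) →
      X = 0 ∨ X = -9 ∨ X = 16 ∨ X = 36 ∨ X = -4)
    (b2 b4 b6 b8 x r e : ℚ)
    (hrel : 4 * b8 = b2 * b6 - b4 ^ 2)
    (hΔ : -b2 ^ 2 * b8 - 8 * b4 ^ 3 - 27 * b6 ^ 2 + 9 * b2 * b4 * b6 ≠ 0)
    (h3 : 3 * x ^ 4 + b2 * x ^ 3 + 3 * b4 * x ^ 2 + 3 * b6 * x + b8 = 0)
    (he : e ≠ 0)
    (h51 : 4 * r ^ 3 + b2 * r ^ 2 + 2 * b4 * r + b6 = (b2 + 12 * r) * e)
    (h52 : 3 * r ^ 4 + b2 * r ^ 3 + 3 * b4 * r ^ 2 + 3 * b6 * r + b8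
      = 5 * e ^ 2 + (6 * r ^ 2 + b2 * r + b4) * e) :
    ∃ t : ℚ, (t = -2 ∨ t = -32 ∨ t = -729 / 32 ∨ t = -729 / 2) ∧
      (b2 ^ 2 - 24 * b4) ^ 3 * t
        = (t + 27) * (t + 3) ^ 3 * (-b2 ^ 2 * b8 - 8 * b4 ^ 3 - 27 * b6 ^ 2 + 9 * b2 * b4 * b6) := by
  have hR1 : ((6 * r ^ 2 + b2 * r + b4) + 2 * e) ^ 2 = e * ((b2 + 12 * r) ^ 2 - 16 * e) := by
    linear_combination hrel - 4 * h52 + (b2 + 12 * r) * h51
  have hR2 : 3 * (x - r) ^ 4 + (b2 + 12 * r) * (x - r) ^ 3 + 3 * (6 * r ^ 2 + b2 * r + b4) * (x - r) ^ 2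
      + 3 * (b2 + 12 * r) * e * (x - r) + 5 * e ^ 2 + (6 * r ^ 2 + b2 * r + b4) * e = 0 := by
    linear_combination h3 - 3 * (x - r) * h51 - h52
  have hc4 : b2 ^ 2 - 24 * b4 = (b2 + 12 * r) ^ 2 - 24 * (6 * r ^ 2 + b2 * r + b4) := by ring
  have hD : -b2 ^ 2 * b8 - 8 * b4 ^ 3 - 27 * b6 ^ 2 + 9 * b2 * b4 * b6
      = 32 * e ^ 2 * ((6 * r ^ 2 + b2 * r + b4) - 20 * e) := by
    linear_combination (-8 * b4 - 2 * b2 * r - 12 * r ^ 2 + 32 * e) * hrel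
      + (32 * b4 - b2 ^ 2 + 8 * b2 * r + 48 * r ^ 2 - 128 * e) * h52
      + (-27 * b6 + b4 * b2 - 42 * b4 * r + b2 ^ 2 * r - 9 * b2 * r ^ 2 + 5 * b2 * e
          - 36 * r ^ 3 + 60 * r * e) * h51
  rw [hD] at hΔ
  rw [hD, hc4]
  exact core_norm hEB _ _ _ _ he hΔ hR1 hR2

/-- `5 ∣ c4` and `5 ∣ D` from `a c4^3 = m D` with `5 ∣ m`, `5 ∤ a`, `125 ∤ m`. -/
theorem five_dvd_both (c4 D a m : ℤ) (h : a * c4 ^ 3 = m * D) (hm : (5 : ℤ) ∣ m)
    (ha : ¬ (5 : ℤ) ∣ a) (hm' : ¬ (125 : ℤ) ∣ m) : (5 : ℤ) ∣ c4 ∧ (5 : ℤ) ∣ D := by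
  have hp5 : Prime (5 : ℤ) := by
    have : Nat.Prime 5 := by norm_num
    exact Nat.prime_iff_prime_int.mp this
  have h1 : (5 : ℤ) ∣ a * c4 ^ 3 := by rw [h]; exact Dvd.dvd.mul_right hm D
  have h2 : (5 : ℤ) ∣ c4 := by
    rcases hp5.dvd_or_dvd h1 with h | h
    · exact absurd h ha
    · exact hp5.dvd_of_dvd_pow h
  refine ⟨h2, ?_⟩
  by_contra hD
  obtain ⟨k, hk⟩ := h2
  obtain ⟨n, hn⟩ := hm
  -- 125 ∣ m * D, and 5 ∤ D, so 125 ∣ m
  have h3 : (5 : ℤ) ^ 3 ∣ m * D := by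
    rw [← h, hk]; exact ⟨a * k ^ 3, by ring⟩
  have hcop : IsCoprime ((5 : ℤ) ^ 3) D := by
    apply IsCoprime.pow_left
    exact (Prime.coprime_iff_not_dvd hp5).mpr hD
  have h4 : (5 : ℤ) ^ 3 ∣ m := hcop.dvd_of_dvd_mul_right h3
  apply hm'
  norm_num at h4
  exact h4

/-- The final 5-adic contradiction. -/
theorem final_arith (c4 D : ℤ)
    (hss : ∀ p : ℕ, p.Prime → (p : ℤ) ∣ D → ¬ (p : ℤ) ∣ c4)
    (t : ℚ) (ht : t = -2 ∨ t = -32 ∨ t = -729 / 32 ∨ t = -729 / 2)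
    (hJ : (c4 : ℚ) ^ 3 * t = (t + 27) * (t + 3) ^ 3 * (D : ℚ)) : False := by
  have key : (5 : ℤ) ∣ c4 ∧ (5 : ℤ) ∣ D := by
    rcases ht with rfl | rfl | rfl | rfl
    · have hZ : (-2 : ℤ) * c4 ^ 3 = 25 * D := by
        have : ((-2 : ℤ) : ℚ) * (c4 : ℚ) ^ 3 = ((25 : ℤ) : ℚ) * (D : ℚ) := by
          push_cast; linear_combination hJ
        exact_mod_cast this
      exact five_dvd_both c4 D (-2) 25 hZ (by norm_num) (by norm_num) (by norm_num)
    · have hZ : (-32 : ℤ) * c4 ^ 3 = 121945 * D := by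
        have : ((-32 : ℤ) : ℚ) * (c4 : ℚ) ^ 3 = ((121945 : ℤ) : ℚ) * (D : ℚ) := by
          push_cast; linear_combination hJ
        exact_mod_cast this
      exact five_dvd_both c4 D (-32) 121945 hZ (by norm_num) (by norm_num) (by norm_num)
    · have hZ : (32768 : ℤ) * c4 ^ 3 = 46969655 * D := by
        have : ((32768 : ℤ) : ℚ) * (c4 : ℚ) ^ 3 = ((46969655 : ℤ) : ℚ) * (D : ℚ) := by
          push_cast; linear_combination (-32768 / 729 * 32) * hJ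
        exact_mod_cast this
      exact five_dvd_both c4 D 32768 46969655 hZ (by norm_num) (by norm_num) (by norm_num)
    · have hZ : (-8 : ℤ) * c4 ^ 3 = 349938025 * D := by
        have : ((-8 : ℤ) : ℚ) * (c4 : ℚ) ^ 3 = ((349938025 : ℤ) : ℚ) * (D : ℚ) := by
          push_cast; linear_combination (16 / 729) * hJ
        exact_mod_cast this
      exact five_dvd_both c4 D (-8) 349938025 hZ (by norm_num) (by norm_num) (by norm_num)
  exact hss 5 (by norm_num) (by exact_mod_cast key.2) (by exact_mod_cast key.1)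

end Fermat.Agent.S51.Core
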