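import Fermat.Statements.S51
import Fermat.Agent.S51.Core

set_option autoImplicit false
open WeierstrassCurve

namespace Fermat.Agent.S51.Core

/-- (CORE) A semistable integral model cannot carry both a rational root of `ψ₃` and a rational
5-kernel datum `(r, e)`. `hEB` is the list of rational points on `15a1`. -/
theorem core
    (hEB : ∀ X Y : ℚ, Y ^ 2 = X * (X + 9) * (X - 16) →
      X = 0 ∨ X = -9 ∨ X = 16 ∨ X = 36 ∨ X = -4)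
    (W : WeierstrassCurve ℤ) (hΔ : W.Δ ≠ 0) (hW : W.IsSemistableModel)
    (x₃ r e : ℚ)
    (h3 : 3 * x₃ ^ 4 + (W.map (Int.castRingHom ℚ)).b₂ * x₃ ^ 3
      + 3 * (W.map (Int.castRingHom ℚ)).b₄ * x₃ ^ 2
      + 3 * (W.map (Int.castRingHom ℚ)).b₆ * x₃ + (W.map (Int.castRingHom ℚ)).b₈ = 0)
    (he : e ≠ 0)
    (h51 : 4 * r ^ 3 + (W.map (Int.castRingHom ℚ)).b₂ * r ^ 2
      + 2 * (W.map (Int.castRingHom ℚ)).b₄ * r
      + (W.map (Int.castRingHom ℚ)).b₆ = ((W.map (Int.castRingHom ℚ)).b₂ + 12 * r) * e)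
    (h52 : 3 * r ^ 4 + (W.map (Int.castRingHom ℚ)).b₂ * r ^ 3
      + 3 * (W.map (Int.castRingHom ℚ)).b₄ * r ^ 2
      + 3 * (W.map (Int.castRingHom ℚ)).b₆ * r + (W.map (Int.castRingHom ℚ)).b₈
        = 5 * e ^ 2 + (6 * r ^ 2 + (W.map (Int.castRingHom ℚ)).b₂ * r
          + (W.map (Int.castRingHom ℚ)).b₄) * e) :
    False := by
  generalize hE : W.map (Int.castRingHom ℚ) = E at h3 h51 h52
  have hrel : 4 * E.b₈ = E.b₂ * E.b₆ - E.b₄ ^ 2 := E.b_relation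
  have hΔE : E.Δ = -E.b₂ ^ 2 * E.b₈ - 8 * E.b₄ ^ 3 - 27 * E.b₆ ^ 2 + 9 * E.b₂ * E.b₄ * E.b₆ := rfl
  have hc4E : E.c₄ = E.b₂ ^ 2 - 24 * E.b₄ := rfl
  have hΔcast : E.Δ = ((W.Δ : ℤ) : ℚ) := by
    rw [← hE, WeierstrassCurve.map_Δ]; simp
  have hc4cast : E.c₄ = ((W.c₄ : ℤ) : ℚ) := by
    rw [← hE, WeierstrassCurve.map_c₄]; simp
  have hΔ' : -E.b₂ ^ 2 * E.b₈ - 8 * E.b₄ ^ 3 - 27 * E.b₆ ^ 2 + 9 * E.b₂ * E.b₄ * E.b₆ ≠ 0 := by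
    rw [← hΔE, hΔcast]
    exact_mod_cast hΔ
  obtain ⟨t, ht, hJ⟩ := core_alg hEB E.b₂ E.b₄ E.b₆ E.b₈ x₃ r e hrel hΔ' h3 he h51 h52
  rw [← hΔE, ← hc4E, hΔcast, hc4cast] at hJ
  exact final_arith W.c₄ W.Δ hW t ht hJ

end Fermat.Agent.S51.Core
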