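import Mathlib

/-!
# S51 / P6, piece (EB): rational points of `Y^2 = X (X + 9) (X - 16)` from the descent (EC)

The curve `E : Y^2 = X (X + 9) (X - 16)` (15a1) is 2-isogenous (kernel `(16, 0)`) to
`E' : y^2 = x (x - 1) (x - 81)`, via
`x = X (X + 9) / (X - 16)`, `y = Y (X + 4) (X - 36) / (X - 16)^2`.
If `E'` has only its 2-torsion as rational points (statement (EC)), then `E(ℚ)` consists of the
eight torsion points, i.e. `X ∈ {0, -9, 16, 36, -4}`.
-/

set_option autoImplicit false

namespace Fermat.Agent.S51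

/-- The isogeny identity: the image of a point of `Y^2 = X (X + 9) (X - 16)` with `X ≠ 16`
lies on `y^2 = x (x - 1) (x - 81)`. -/
theorem EB_isogeny_identity (X Y : ℚ) (hX : X - 16 ≠ 0) (h : Y ^ 2 = X * (X + 9) * (X - 16)) :
    (Y * (X + 4) * (X - 36) / (X - 16) ^ 2) ^ 2 =
      (X * (X + 9) / (X - 16)) * (X * (X + 9) / (X - 16) - 1) * (X * (X + 9) / (X - 16) - 81) := by
  have h1 : X * (X + 9) / (X - 16) - 1 = (X + 4) ^ 2 / (X - 16) := by
    field_simp
    ring
  have h2 : X * (X + 9) / (X - 16) - 81 = (X - 36) ^ 2 / (X - 16) := by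
    field_simp
    ring
  rw [h1, h2]
  have h3 : (Y * (X + 4) * (X - 36) / (X - 16) ^ 2) ^ 2
      = Y ^ 2 * ((X + 4) ^ 2 * (X - 36) ^ 2) / (X - 16) ^ 4 := by
    field_simp
  rw [h3, h]
  field_simp

/-- (EB) from (EC): if `y^2 = x (x - 1) (x - 81)` has no rational point with `y ≠ 0`, then the
rational points of `Y^2 = X (X + 9) (X - 16)` have `X ∈ {0, -9, 16, 36, -4}`. -/
theorem EB_points_of_EC (hEC : ∀ x y : ℚ, y ^ 2 = x * (x - 1) * (x - 81) → y = 0) :
    ∀ X Y : ℚ, Y ^ 2 = X * (X + 9) * (X - 16) →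
      X = 0 ∨ X = -9 ∨ X = 16 ∨ X = 36 ∨ X = -4 := by
  intro X Y h
  by_cases hX : X - 16 = 0
  · right; right; left; linarith
  have hy := hEC _ _ (EB_isogeny_identity X Y hX h)
  have hne : (X - 16) ^ 2 ≠ 0 := pow_ne_zero _ hX
  rw [div_eq_zero_iff] at hy
  rcases hy with hy | hy
  · rcases mul_eq_zero.mp hy with hy | hy
    · rcases mul_eq_zero.mp hy with hY | hX4
      · -- `Y = 0`
        rw [hY] at h
        have h0 : X * (X + 9) * (X - 16) = 0 := by rw [← h]; ring
        rcases mul_eq_zero.mp h0 with h0 | h0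
        · rcases mul_eq_zero.mp h0 with h0 | h0
          · left; exact h0
          · right; left; linarith
        · exact absurd h0 hX
      · right; right; right; right; linarith
    · right; right; right; left; linarith
  · exact absurd hy hne

end Fermat.Agent.S51
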