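/-
S51 / P6, EC descent pieces (A) and (B), by helper55.

(A) `class_of_point`: complete 2-Selmer computation for `y^2 = x (x - 1) (x - 81)`:
    for a rational point with `y ≠ 0`, `x` is a square and `x - 1`, `x - 81` are `δ` times squares
    with `δ ∈ {1, -1, 5, -5}`.
(B) `exists_square_point`: translating by a 2-torsion point one reaches the class `δ = 1`,
    keeping the x-coordinate of the double.
-/
import Mathlib

namespace Fermat.Agent.S51Sel

/-- positive coprime factor of a square is a square -/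
lemma sq_of_coprime_pos {a b c : ℤ} (hab : IsCoprime a b) (h : a * b = c ^ 2) (ha : 0 < a) :
    ∃ r : ℤ, a = r ^ 2 := by
  obtain ⟨r, hr | hr⟩ := Int.sq_of_isCoprime hab h
  · exact ⟨r, hr⟩
  · exfalso
    have : 0 ≤ r ^ 2 := sq_nonneg r
    omega

/-- cancel a square factor from a square -/
lemma sq_cancel {e t k : ℤ} (he : e ≠ 0) (h : e ^ 2 * t = k ^ 2) :
    ∃ k₁ : ℤ, k = e * k₁ ∧ t = k₁ ^ 2 := by
  have hdvd : e ^ 2 ∣ k ^ 2 := ⟨t, h.symm⟩
  have hek : e ∣ k := (Int.pow_dvd_pow_iff (by norm_num)).1 hdvd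
  obtain ⟨k₁, rfl⟩ := hek
  refine ⟨k₁, rfl, ?_⟩
  have he2 : e ^ 2 ≠ 0 := pow_ne_zero 2 he
  apply mul_left_cancel₀ he2
  rw [h]; ring

/-- `-1` is not a square mod 3 -/
lemma zmod3_key : ∀ p q : ZMod 3, q ≠ 0 → p ^ 2 + q ^ 2 ≠ 0 := by decide

lemma int_mod3_key {p q : ℤ} (hq : ¬ (3 : ℤ) ∣ q) (h : (3 : ℤ) ∣ p ^ 2 + q ^ 2) : False := by
  have h1 : ((p ^ 2 + q ^ 2 : ℤ) : ZMod 3) = 0 := by
    exact (ZMod.intCast_zmod_eq_zero_iff_dvd _ 3).2 (by exact_mod_cast h)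
  have h2 : (q : ZMod 3) ≠ 0 := by
    intro h0
    exact hq (by exact_mod_cast (ZMod.intCast_zmod_eq_zero_iff_dvd q 3).1 h0)
  push_cast at h1
  exact zmod3_key _ _ h2 h1

/-- The 3-adic obstruction: if `m' * (A - e^2) * (m' - C) = k^2` with `3 ∣ A`, `3 ∣ C`,
`3 ∤ m'`, `3 ∤ e`, contradiction. -/
lemma three_obstruction {m' e A C k : ℤ} (hA : (3 : ℤ) ∣ A) (hC : (3 : ℤ) ∣ C)
    (hm : ¬ (3 : ℤ) ∣ m') (he : ¬ (3 : ℤ) ∣ e)
    (h : m' * (A - e ^ 2) * (m' - C) = k ^ 2) : False := by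
  obtain ⟨A', rfl⟩ := hA
  obtain ⟨C', rfl⟩ := hC
  have hq : ¬ (3 : ℤ) ∣ m' * e := by
    intro hd
    rcases (Int.prime_three.dvd_mul).1 hd with h1 | h1
    · exact hm h1
    · exact he h1
  apply int_mod3_key (p := k) hq
  refine ⟨m' ^ 2 * A' - m' * A' * C' * 3 + m' * e ^ 2 * C', ?_⟩
  rw [← h]; ring

/-- step: `m` is a square -/
lemma num_sq {m e k : ℤ} (he : e ≠ 0) (hcop : IsCoprime m e) (hk : k ≠ 0)
    (h : m * (m - e ^ 2) * (m - 81 * e ^ 2) = k ^ 2) : ∃ u : ℤ, m = u ^ 2 := by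
  have hn : 0 < e ^ 2 := by positivity
  -- positivity of m
  have hm : 0 < m := by
    by_contra hm
    rw [not_lt] at hm
    have hk2 : 0 < k ^ 2 := by positivity
    rcases hm.lt_or_eq with hlt | heq
    · have h1 : m - e ^ 2 < 0 := by linarith
      have h2 : m - 81 * e ^ 2 < 0 := by linarith
      have : m * (m - e ^ 2) * (m - 81 * e ^ 2) < 0 := by
        have h3 : 0 < m * (m - e ^ 2) := mul_pos_of_neg_of_neg hlt h1
        exact mul_neg_of_pos_of_neg h3 h2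
      linarith
    · have hk0 : k ^ 2 = 0 := by rw [← h, heq]; ring
      exact hk ((pow_eq_zero_iff (two_ne_zero)).1 hk0)
  have hcop2 : IsCoprime m (e ^ 2) := hcop.pow_right
  by_cases h3 : (3 : ℤ) ∣ m
  · -- 3 ∣ m : then 3 ∤ e
    have he3 : ¬ (3 : ℤ) ∣ e := by
      intro h3e
      have := hcop.isUnit_of_dvd' h3 h3e
      rw [Int.isUnit_iff] at this
      omega
    by_cases h81 : (81 : ℤ) ∣ m
    · obtain ⟨m₄, rfl⟩ := h81
      -- 81 m₄ (81 m₄ - e²) (81 m₄ - 81 e²) = k²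
      have h' : (81 : ℤ) ^ 2 * (m₄ * ((81 * m₄ - e ^ 2) * (m₄ - e ^ 2))) = k ^ 2 := by
        rw [← h]; ring
      obtain ⟨k₁, -, hk₁⟩ := sq_cancel (by norm_num) h'
      have hm4 : 0 < m₄ := by linarith
      have hc4 : IsCoprime m₄ (e ^ 2) := IsCoprime.of_mul_left_right hcop2
      have hc : IsCoprime m₄ ((81 * m₄ - e ^ 2) * (m₄ - e ^ 2)) := by
        apply IsCoprime.mul_right
        · have : IsCoprime m₄ (-(e ^ 2) + m₄ * 81) := (hc4.neg_right).add_mul_left_right 81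
          rwa [show 81 * m₄ - e ^ 2 = -(e ^ 2) + m₄ * 81 by ring]
        · have : IsCoprime m₄ (-(e ^ 2) + m₄ * 1) := (hc4.neg_right).add_mul_left_right 1
          rwa [show m₄ - e ^ 2 = -(e ^ 2) + m₄ * 1 by ring]
      obtain ⟨d, hd⟩ := sq_of_coprime_pos hc hk₁ hm4
      exact ⟨9 * d, by rw [hd]; ring⟩
    · exfalso
      -- 3 ∣ m but 81 ∤ m
      obtain ⟨m₁, rfl⟩ := h3
      by_cases h3' : (3 : ℤ) ∣ m₁
      · obtain ⟨m₂, rfl⟩ := h3'
        by_cases h3'' : (3 : ℤ) ∣ m₂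
        · obtain ⟨m₃, rfl⟩ := h3''
          have h3''' : ¬ (3 : ℤ) ∣ m₃ := by
            rintro ⟨m₄, rfl⟩
            exact h81 ⟨m₄, by ring⟩
          have h' : (27 : ℤ) ^ 2 * (m₃ * (3 * (9 * m₃) - e ^ 2) * (m₃ - 3 * e ^ 2)) = k ^ 2 := by
            rw [← h]; ring
          obtain ⟨k₁, -, hk₁⟩ := sq_cancel (by norm_num) h'
          exact three_obstruction (A := 3 * (9 * m₃)) (C := 3 * e ^ 2) ⟨_, rfl⟩ ⟨_, rfl⟩ h3''' he3 hk₁
        · have h' : (9 : ℤ) ^ 2 * (m₂ * (3 * (3 * m₂) - e ^ 2) * (m₂ - 3 * (3 * e ^ 2))) = k ^ 2 := by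
            rw [← h]; ring
          obtain ⟨k₁, -, hk₁⟩ := sq_cancel (by norm_num) h'
          exact three_obstruction (A := 3 * (3 * m₂)) (C := 3 * (3 * e ^ 2)) ⟨_, rfl⟩ ⟨_, rfl⟩ h3'' he3 hk₁
      · have h' : (3 : ℤ) ^ 2 * (m₁ * (3 * m₁ - e ^ 2) * (m₁ - 3 * (9 * e ^ 2))) = k ^ 2 := by
          rw [← h]; ring
        obtain ⟨k₁, -, hk₁⟩ := sq_cancel (by norm_num) h'
        exact three_obstruction (A := 3 * m₁) (C := 3 * (9 * e ^ 2)) ⟨_, rfl⟩ ⟨_, rfl⟩ h3' he3 hk₁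
  · -- 3 ∤ m
    have hc3 : IsCoprime m 3 := by
      rw [isCoprime_comm]
      exact (Int.prime_three.coprime_iff_not_dvd).2 h3
    have hc81 : IsCoprime m 81 := by
      have : IsCoprime m (3 ^ 4) := hc3.pow_right
      norm_num at this
      exact this
    have hc : IsCoprime m ((m - e ^ 2) * (m - 81 * e ^ 2)) := by
      apply IsCoprime.mul_right
      · have : IsCoprime m (-(e ^ 2) + m * 1) := (hcop2.neg_right).add_mul_left_right 1
        rwa [show m - e ^ 2 = -(e ^ 2) + m * 1 by ring]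
      · have h1 : IsCoprime m (81 * e ^ 2) := hc81.mul_right hcop2
        have : IsCoprime m (-(81 * e ^ 2) + m * 1) := (h1.neg_right).add_mul_left_right 1
        rwa [show m - 81 * e ^ 2 = -(81 * e ^ 2) + m * 1 by ring]
    have h' : m * ((m - e ^ 2) * (m - 81 * e ^ 2)) = k ^ 2 := by rw [← h]; ring
    exact sq_of_coprime_pos hc h' hm

lemma zmod4_key : ∀ V W : ZMod 4, ∀ δ : ZMod 4, (δ = 1 ∨ δ = -1) → δ * (V ^ 2 - W ^ 2) ≠ 2 := by
  decide

/-- The 2-adic obstruction. -/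
lemma two_obstruction {u e v w δ : ℤ} (hcop : IsCoprime u e)
    (hδ : δ = 1 ∨ δ = -1 ∨ δ = 5 ∨ δ = -5)
    (ha : u ^ 2 - e ^ 2 = 2 * δ * v ^ 2) (hb : u ^ 2 - 81 * e ^ 2 = 2 * δ * w ^ 2) : False := by
  -- u and e are odd
  have hodd : Odd u ∧ Odd e := by
    rcases Int.even_or_odd' u with ⟨a, rfl | rfl⟩ <;> rcases Int.even_or_odd' e with ⟨b, rfl | rfl⟩
    · exfalso
      have h2 : IsUnit (2 : ℤ) := hcop.isUnit_of_dvd' ⟨a, rfl⟩ ⟨b, rfl⟩
      rw [Int.isUnit_iff] at h2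
      omega
    · exfalso
      have : (2 * a) ^ 2 - (2 * b + 1) ^ 2 = 2 * (2 * a ^ 2 - 2 * b ^ 2 - 2 * b) - 1 := by ring
      rw [this] at ha
      have h3 : 2 * δ * v ^ 2 = 2 * (δ * v ^ 2) := by ring
      rw [h3] at ha
      omega
    · exfalso
      have : (2 * a + 1) ^ 2 - (2 * b) ^ 2 = 2 * (2 * a ^ 2 + 2 * a - 2 * b ^ 2) + 1 := by ring
      rw [this] at ha
      have h3 : 2 * δ * v ^ 2 = 2 * (δ * v ^ 2) := by ring
      rw [h3] at ha
      omega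
    · exact ⟨⟨a, rfl⟩, ⟨b, rfl⟩⟩
  obtain ⟨⟨a, rfl⟩, ⟨b, rfl⟩⟩ := hodd
  have hδodd : Odd δ := by
    rcases hδ with rfl | rfl | rfl | rfl <;> decide
  -- a(a+1) even
  obtain ⟨ta, hta⟩ : ∃ t, a ^ 2 + a = 2 * t := by
    rcases Int.even_or_odd' a with ⟨c, rfl | rfl⟩
    · exact ⟨2 * c ^ 2 + c, by ring⟩
    · exact ⟨2 * c ^ 2 + 3 * c + 1, by ring⟩
  obtain ⟨tb, htb⟩ : ∃ t, b ^ 2 + b = 2 * t := by
    rcases Int.even_or_odd' b with ⟨c, rfl | rfl⟩
    · exact ⟨2 * c ^ 2 + c, by ring⟩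
    · exact ⟨2 * c ^ 2 + 3 * c + 1, by ring⟩
  -- v even
  have ha' : δ * v ^ 2 = 4 * (ta - tb) := by
    have : 2 * (δ * v ^ 2) = 4 * (a ^ 2 + a) - 4 * (b ^ 2 + b) := by rw [← mul_assoc, ← ha]; ring
    rw [hta, htb] at this
    linarith
  have hb' : δ * w ^ 2 = 4 * (ta - 81 * tb - 10) := by
    have : 2 * (δ * w ^ 2) = 4 * (a ^ 2 + a) - 324 * (b ^ 2 + b) - 80 := by
      rw [← mul_assoc, ← hb]; ring
    rw [hta, htb] at this
    linarith
  have hv : Even v := by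
    by_contra hv
    have hv' : Odd v := Int.not_even_iff_odd.1 hv
    have : Odd (δ * v ^ 2) := hδodd.mul hv'.pow
    rw [ha'] at this
    have h4 : Even (4 * (ta - tb)) := ⟨2 * (ta - tb), by ring⟩
    exact (Int.not_even_iff_odd.2 this) h4
  have hw : Even w := by
    by_contra hw
    have hw' : Odd w := Int.not_even_iff_odd.1 hw
    have : Odd (δ * w ^ 2) := hδodd.mul hw'.pow
    rw [hb'] at this
    have h4 : Even (4 * (ta - 81 * tb - 10)) := ⟨2 * (ta - 81 * tb - 10), by ring⟩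
    exact (Int.not_even_iff_odd.2 this) h4
  obtain ⟨v₁, rfl⟩ := hv
  obtain ⟨w₁, rfl⟩ := hw
  have hfin : δ * (v₁ ^ 2 - w₁ ^ 2) = 4 * (20 * tb) + 10 := by
    have e1 : δ * (v₁ + v₁) ^ 2 = 4 * (δ * v₁ ^ 2) := by ring
    have e2 : δ * (w₁ + w₁) ^ 2 = 4 * (δ * w₁ ^ 2) := by ring
    rw [e1] at ha'
    rw [e2] at hb'
    have : 4 * (δ * (v₁ ^ 2 - w₁ ^ 2)) = 4 * (4 * (20 * tb) + 10) := by
      have : 4 * (δ * (v₁ ^ 2 - w₁ ^ 2)) = 4 * (δ * v₁ ^ 2) - 4 * (δ * w₁ ^ 2) := by ring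
      rw [this, ha', hb']; ring
    linarith
  have hcast := congrArg (Int.cast : ℤ → ZMod 4) hfin
  push_cast at hcast
  have h4 : ((4 : ℤ) : ZMod 4) = 0 := by decide
  have h4' : (4 : ZMod 4) = 0 := by decide
  have h10 : (10 : ZMod 4) = 2 := by decide
  rw [h4', zero_mul, zero_add, h10] at hcast
  refine zmod4_key (v₁ : ZMod 4) (w₁ : ZMod 4) (δ : ZMod 4) ?_ hcast
  rcases hδ with rfl | rfl | rfl | rfl
  · left; push_cast; rfl
  · right; push_cast; rfl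
  · left; push_cast; decide
  · right; push_cast; decide

lemma divisors80 {g : ℕ} (hg : g ∣ 80) :
    g = 1 ∨ g = 2 ∨ g = 4 ∨ g = 5 ∨ g = 8 ∨ g = 10 ∨ g = 16 ∨ g = 20 ∨ g = 40 ∨ g = 80 := by
  have h1 : g ∈ Nat.divisors 80 := Nat.mem_divisors.2 ⟨hg, by norm_num⟩
  have h2 : Nat.divisors 80 = {1, 2, 4, 5, 8, 10, 16, 20, 40, 80} := by decide
  rw [h2] at h1
  simpa using h1

/-- step: the classes of `u^2 - e^2` and `u^2 - 81 e^2` -/
lemma class_step {u e k : ℤ} (hcop : IsCoprime u e) (hk : k ≠ 0)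
    (h : (u ^ 2 - e ^ 2) * (u ^ 2 - 81 * e ^ 2) = k ^ 2) :
    ∃ δ v w : ℤ, (δ = 1 ∨ δ = -1 ∨ δ = 5 ∨ δ = -5) ∧
      u ^ 2 - e ^ 2 = δ * v ^ 2 ∧ u ^ 2 - 81 * e ^ 2 = δ * w ^ 2 := by
  set a := u ^ 2 - e ^ 2 with ha
  set b := u ^ 2 - 81 * e ^ 2 with hb
  have hk2 : 0 < k ^ 2 := by positivity
  have ha0 : a ≠ 0 := by
    rintro h0; rw [h0, zero_mul] at h; exact hk2.ne h
  have hb0 : b ≠ 0 := by
    rintro h0; rw [h0, mul_zero] at h; exact hk2.ne h
  have hgpos : 0 < Int.gcd a b := Int.gcd_pos_of_ne_zero_left _ ha0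
  obtain ⟨a', b', hcop', haa', hbb'⟩ := Int.exists_gcd_one hgpos
  set g := Int.gcd a b with hg
  -- g is coprime to e
  have hae : IsCoprime a e := by
    have h1 : IsCoprime (u ^ 2) e := hcop.pow_left
    have h2 : IsCoprime (u ^ 2 + e * (-e)) e := h1.add_mul_left_left (-e)
    rwa [show u ^ 2 + e * (-e) = a by rw [ha]; ring] at h2
  have hge : IsCoprime (g : ℤ) e := by
    apply IsCoprime.of_isCoprime_of_dvd_left hae
    exact ⟨a', by rw [haa']; ring⟩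
  have hg80 : (g : ℤ) ∣ 80 := by
    have h1 : (g : ℤ) ∣ a - b := dvd_sub ⟨a', by rw [haa']; ring⟩ ⟨b', by rw [hbb']; ring⟩
    have h2 : a - b = 80 * e ^ 2 := by rw [ha, hb]; ring
    rw [h2] at h1
    exact (hge.pow_right).dvd_of_dvd_mul_right h1
  have hg80' : g ∣ 80 := by exact_mod_cast hg80
  -- a' b' is a square
  have hg0 : (g : ℤ) ≠ 0 := by exact_mod_cast hgpos.ne'
  have h' : (g : ℤ) ^ 2 * (a' * b') = k ^ 2 := by
    rw [← h, haa', hbb']; ring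
  obtain ⟨k₁, hkk₁, hk₁⟩ := sq_cancel hg0 h'
  have hk₁0 : k₁ ≠ 0 := by
    rintro rfl; rw [mul_zero] at hkk₁; exact hk hkk₁
  have hk₁2 : 0 < k₁ ^ 2 := by positivity
  have hcop'' : IsCoprime a' b' := Int.isCoprime_iff_gcd_eq_one.2 hcop'
  obtain ⟨α, hα⟩ := Int.sq_of_isCoprime hcop'' hk₁
  obtain ⟨β, hβ⟩ := Int.sq_of_isCoprime hcop''.symm (by rw [mul_comm]; exact hk₁)
  -- same sign
  obtain ⟨s, hs, hα', hβ'⟩ : ∃ s : ℤ, (s = 1 ∨ s = -1) ∧ a' = s * α ^ 2 ∧ b' = s * β ^ 2 := by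
    rcases hα with hα | hα <;> rcases hβ with hβ | hβ
    · exact ⟨1, Or.inl rfl, by rw [hα]; ring, by rw [hβ]; ring⟩
    · exfalso
      rw [hα, hβ] at hk₁
      have : 0 ≤ α ^ 2 * β ^ 2 := by positivity
      nlinarith
    · exfalso
      rw [hα, hβ] at hk₁
      have : 0 ≤ α ^ 2 * β ^ 2 := by positivity
      nlinarith
    · exact ⟨-1, Or.inr rfl, by rw [hα]; ring, by rw [hβ]; ring⟩
  have hA : a = s * g * α ^ 2 := by rw [haa', hα']; ring
  have hB : b = s * g * β ^ 2 := by rw [hbb', hβ']; ring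
  rcases divisors80 hg80' with h1 | h1 | h1 | h1 | h1 | h1 | h1 | h1 | h1 | h1 <;>
    rw [h1] at hA hB <;> push_cast at hA hB
  · -- g = 1
    refine ⟨s, α, β, ?_, by rw [hA]; ring, by rw [hB]; ring⟩
    rcases hs with rfl | rfl <;> simp
  · -- g = 2
    exfalso
    refine two_obstruction (δ := s) (v := α) (w := β) hcop ?_
      (by rw [← ha, hA]; ring) (by rw [← hb, hB]; ring)
    rcases hs with rfl | rfl <;> simp
  · -- g = 4
    refine ⟨s, 2 * α, 2 * β, ?_, by rw [hA]; ring, by rw [hB]; ring⟩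
    rcases hs with rfl | rfl <;> simp
  · -- g = 5
    refine ⟨s * 5, α, β, ?_, by rw [hA], by rw [hB]⟩
    rcases hs with rfl | rfl <;> simp
  · -- g = 8
    exfalso
    refine two_obstruction (δ := s) (v := 2 * α) (w := 2 * β) hcop ?_
      (by rw [← ha, hA]; ring) (by rw [← hb, hB]; ring)
    rcases hs with rfl | rfl <;> simp
  · -- g = 10
    exfalso
    refine two_obstruction (δ := s * 5) (v := α) (w := β) hcop ?_
      (by rw [← ha, hA]; ring) (by rw [← hb, hB]; ring)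
    rcases hs with rfl | rfl <;> simp
  · -- g = 16
    refine ⟨s, 4 * α, 4 * β, ?_, by rw [hA]; ring, by rw [hB]; ring⟩
    rcases hs with rfl | rfl <;> simp
  · -- g = 20
    refine ⟨s * 5, 2 * α, 2 * β, ?_, by rw [hA]; ring, by rw [hB]; ring⟩
    rcases hs with rfl | rfl <;> simp
  · -- g = 40
    exfalso
    refine two_obstruction (δ := s * 5) (v := 2 * α) (w := 2 * β) hcop ?_
      (by rw [← ha, hA]; ring) (by rw [← hb, hB]; ring)
    rcases hs with rfl | rfl <;> simp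
  · -- g = 80
    refine ⟨s * 5, 4 * α, 4 * β, ?_, by rw [hA]; ring, by rw [hB]; ring⟩
    rcases hs with rfl | rfl <;> simp

/-- integer form of the class lemma -/
lemma class_int {m n k : ℤ} (hn : 0 < n) (hcop : IsCoprime m n) (hk : k ≠ 0)
    (h : m * n * (m - n) * (m - 81 * n) = k ^ 2) :
    ∃ u e δ v w : ℤ, e ≠ 0 ∧ (δ = 1 ∨ δ = -1 ∨ δ = 5 ∨ δ = -5) ∧ m = u ^ 2 ∧ n = e ^ 2 ∧
      m - n = δ * v ^ 2 ∧ m - 81 * n = δ * w ^ 2 := by
  -- n is a square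
  have hc1 : IsCoprime n (m * (m - n) * (m - 81 * n)) := by
    have hnm : IsCoprime n m := hcop.symm
    apply IsCoprime.mul_right (IsCoprime.mul_right hnm _) _
    · have : IsCoprime n (m + n * (-1)) := hnm.add_mul_left_right (-1)
      rwa [show m + n * (-1) = m - n by ring] at this
    · have : IsCoprime n (m + n * (-81)) := hnm.add_mul_left_right (-81)
      rwa [show m + n * (-81) = m - 81 * n by ring] at this
  obtain ⟨e, rfl⟩ := sq_of_coprime_pos hc1 (by rw [← h]; ring) hn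
  have he : e ≠ 0 := by
    rintro rfl; simp at hn
  obtain ⟨k₁, hkk₁, hk₁⟩ := sq_cancel he
    (show e ^ 2 * (m * (m - e ^ 2) * (m - 81 * e ^ 2)) = k ^ 2 by rw [← h]; ring)
  have hk₁0 : k₁ ≠ 0 := by
    rintro rfl; rw [mul_zero] at hkk₁; exact hk hkk₁
  have hcop_me : IsCoprime m e := (IsCoprime.pow_right_iff (by norm_num)).1 hcop
  obtain ⟨u, rfl⟩ := num_sq he hcop_me hk₁0 hk₁
  have hu : u ≠ 0 := by
    rintro rfl
    rw [show ((0:ℤ) ^ 2) = 0 by norm_num, zero_mul, zero_mul] at hk₁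
    exact hk₁0 (pow_eq_zero_iff (two_ne_zero) |>.1 hk₁.symm)
  obtain ⟨k₂, hkk₂, hk₂⟩ := sq_cancel hu
    (show u ^ 2 * ((u ^ 2 - e ^ 2) * (u ^ 2 - 81 * e ^ 2)) = k₁ ^ 2 by rw [← hk₁]; ring)
  have hk₂0 : k₂ ≠ 0 := by
    rintro rfl; rw [mul_zero] at hkk₂; exact hk₁0 hkk₂
  have hcop_ue : IsCoprime u e := (IsCoprime.pow_left_iff (by norm_num)).1 hcop_me
  obtain ⟨δ, v, w, hδ, hv, hw⟩ := class_step hcop_ue hk₂0 hk₂
  exact ⟨u, e, δ, v, w, he, hδ, rfl, rfl, hv, hw⟩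

/-- auxiliary form with explicit numerator and denominator -/
lemma class_of_point_aux (m n : ℤ) (x y : ℚ) (hx : x = (m : ℚ) / (n : ℚ)) (hn : 0 < n)
    (hcop : IsCoprime m n) (h : y ^ 2 = x * (x - 1) * (x - 81)) (hy : y ≠ 0) :
    ∃ δ : ℚ, (δ = 1 ∨ δ = -1 ∨ δ = 5 ∨ δ = -5) ∧
      IsSquare x ∧ IsSquare (δ * (x - 1)) ∧ IsSquare (δ * (x - 81)) := by
  have hn0 : (n : ℚ) ≠ 0 := by exact_mod_cast hn.ne'
  have key : ((m * n * (m - n) * (m - 81 * n) : ℤ) : ℚ) = (y * (n : ℚ) ^ 2) ^ 2 := by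
    push_cast
    rw [mul_pow, h, hx]
    field_simp
  have hsq : IsSquare (((m * n * (m - n) * (m - 81 * n) : ℤ)) : ℚ) :=
    ⟨y * (n : ℚ) ^ 2, by rw [key]; ring⟩
  rw [Rat.isSquare_intCast_iff] at hsq
  obtain ⟨k, hk⟩ := hsq
  have hk' : m * n * (m - n) * (m - 81 * n) = k ^ 2 := by
    rw [hk]; ring
  have hk0 : k ≠ 0 := by
    rintro rfl
    rw [hk'] at key
    have h1 : (y * (n : ℚ) ^ 2) ^ 2 = 0 := by rw [← key]; norm_num
    have h2 : y * (n : ℚ) ^ 2 = 0 := pow_eq_zero_iff (two_ne_zero) |>.1 h1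
    rcases mul_eq_zero.1 h2 with h3 | h3
    · exact hy h3
    · exact hn0 (pow_eq_zero_iff (two_ne_zero) |>.1 h3)
  obtain ⟨u, e, δ, v, w, he, hδ, hm, hne, hv, hw⟩ := class_int hn hcop hk0 hk'
  have heq : (e : ℚ) ≠ 0 := by exact_mod_cast he
  have hmq : (m : ℚ) = (u : ℚ) ^ 2 := by exact_mod_cast hm
  have hnq : (n : ℚ) = (e : ℚ) ^ 2 := by exact_mod_cast hne
  have hvq : (m : ℚ) - (n : ℚ) = (δ : ℚ) * (v : ℚ) ^ 2 := by exact_mod_cast hv
  have hwq : (m : ℚ) - 81 * (n : ℚ) = (δ : ℚ) * (w : ℚ) ^ 2 := by exact_mod_cast hw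
  have hxq : x = ((u : ℚ) / e) ^ 2 := by
    rw [hx, hmq, hnq]; field_simp
  have hx1 : x - 1 = (δ : ℚ) * ((v : ℚ) / e) ^ 2 := by
    have : x - 1 = ((m : ℚ) - (n : ℚ)) / (n : ℚ) := by
      rw [hx]; field_simp
    rw [this, hvq, hnq]; field_simp
  have hx81 : x - 81 = (δ : ℚ) * ((w : ℚ) / e) ^ 2 := by
    have : x - 81 = ((m : ℚ) - 81 * (n : ℚ)) / (n : ℚ) := by
      rw [hx]; field_simp
    rw [this, hwq, hnq]; field_simp
  refine ⟨(δ : ℚ), ?_, ⟨(u : ℚ) / e, by rw [hxq]; ring⟩,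
    ⟨(δ : ℚ) * ((v : ℚ) / e), by rw [hx1]; ring⟩, ⟨(δ : ℚ) * ((w : ℚ) / e), by rw [hx81]; ring⟩⟩
  rcases hδ with rfl | rfl | rfl | rfl <;> simp

/-- (A) class lemma (complete 2-Selmer computation for `y^2 = x(x-1)(x-81)`). -/
theorem class_of_point (x y : ℚ) (h : y ^ 2 = x * (x - 1) * (x - 81)) (hy : y ≠ 0) :
    ∃ δ : ℚ, (δ = 1 ∨ δ = -1 ∨ δ = 5 ∨ δ = -5) ∧
      IsSquare x ∧ IsSquare (δ * (x - 1)) ∧ IsSquare (δ * (x - 81)) := by
  have hn : (0 : ℤ) < (x.den : ℤ) := by exact_mod_cast x.den_pos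
  have hx : x = (x.num : ℚ) / ((x.den : ℤ) : ℚ) := by
    rw [Int.cast_natCast]; exact (Rat.num_div_den x).symm
  have hcop : IsCoprime x.num (x.den : ℤ) := by
    rw [Int.isCoprime_iff_gcd_eq_one]
    have := x.reduced
    simpa [Int.gcd, Nat.Coprime] using this
  exact class_of_point_aux x.num x.den x y hx hn hcop h hy

/-- x-coordinate of `2P` on `y^2 = x(x-1)(x-81)` -/
noncomputable def dup (x : ℚ) : ℚ := (x ^ 2 - 81) ^ 2 / (4 * (x * (x - 1) * (x - 81)))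

/-- (B) translation by 2-torsion to the class `δ = 1`. -/
theorem exists_square_point (x y : ℚ) (h : y ^ 2 = x * (x - 1) * (x - 81)) (hy : y ≠ 0) :
    ∃ x' : ℚ, x' ≠ 0 ∧ x' ≠ 1 ∧ x' ≠ 81 ∧ IsSquare x' ∧ IsSquare (x' - 1) ∧ IsSquare (x' - 81) ∧
      dup x' = dup x := by
  have hprod : x * (x - 1) * (x - 81) ≠ 0 := by
    rw [← h]; exact pow_ne_zero 2 hy
  have hx0 : x ≠ 0 := by
    rintro rfl; simp at hprod
  have hx1 : x - 1 ≠ 0 := by
    intro h0; rw [h0] at hprod; simp at hprod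
  have hx81 : x - 81 ≠ 0 := by
    intro h0; rw [h0] at hprod; simp at hprod
  have hx1' : x ≠ 1 := fun h0 => hx1 (by rw [h0]; ring)
  have hx81' : x ≠ 81 := fun h0 => hx81 (by rw [h0]; ring)
  obtain ⟨δ, hδ, ⟨s, hs⟩, ⟨r, hr⟩, ⟨t, ht⟩⟩ := class_of_point x y h hy
  have hs0 : s ≠ 0 := by
    rintro rfl; apply hx0; rw [hs]; ring
  rcases hδ with rfl | rfl | rfl | rfl
  · -- δ = 1
    refine ⟨x, hx0, hx1', hx81', ⟨s, hs⟩, ⟨r, by rw [← hr]; ring⟩, ⟨t, by rw [← ht]; ring⟩, rfl⟩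
  · -- δ = -1 : x' = 81 / x
    have hr0 : r ≠ 0 := by
      rintro rfl; apply hx1; linarith
    have ht0 : t ≠ 0 := by
      rintro rfl; apply hx81; linarith
    refine ⟨81 / x, ?_, ?_, ?_, ⟨9 / s, ?_⟩, ⟨t / s, ?_⟩, ⟨9 * r / s, ?_⟩, ?_⟩
    · exact div_ne_zero (by norm_num) hx0
    · intro h0; rw [div_eq_iff hx0] at h0; apply hx81'; linarith
    · intro h0; rw [div_eq_iff hx0] at h0; apply hx1'; linarith
    · rw [hs]; field_simp; norm_num
    · have : 81 / x - 1 = (-1 * (x - 81)) / x := by field_simp; ring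
      rw [this, ht, hs]; field_simp
    · have : 81 / x - 81 = 81 * (-1 * (x - 1)) / x := by field_simp; ring
      rw [this, hr, hs]; field_simp; ring
    · unfold dup
      have h1 : 81 / x - 1 ≠ 0 := by
        intro h0; apply hx81'; field_simp at h0; linarith
      have h2 : 81 / x - 81 ≠ 0 := by
        intro h0; apply hx1'; field_simp at h0; linarith
      rw [div_eq_div_iff (by
        refine mul_ne_zero (by norm_num) (mul_ne_zero (mul_ne_zero (div_ne_zero (by norm_num) hx0) h1) h2))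
        (mul_ne_zero (by norm_num) hprod)]
      field_simp
      ring
  · -- δ = 5 : x' = 81 (x - 1) / (x - 81)
    have hr0 : r ≠ 0 := by
      rintro rfl; apply hx1; linarith
    have ht0 : t ≠ 0 := by
      rintro rfl; apply hx81; linarith
    refine ⟨81 * (x - 1) / (x - 81), ?_, ?_, ?_, ⟨9 * r / t, ?_⟩, ⟨20 * s / t, ?_⟩,
      ⟨180 / t, ?_⟩, ?_⟩
    · exact div_ne_zero (mul_ne_zero (by norm_num) hx1) hx81
    · intro h0; rw [div_eq_iff hx81] at h0; apply hx0; linarith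
    · intro h0; rw [div_eq_iff hx81] at h0; linarith
    · have : 81 * (x - 1) / (x - 81) = 81 * (5 * (x - 1)) / (5 * (x - 81)) := by
        field_simp
      rw [this, hr, ht]; field_simp; ring
    · have : 81 * (x - 1) / (x - 81) - 1 = 400 * x / (5 * (x - 81)) := by
        field_simp; ring
      rw [this, ht, hs]; field_simp; ring
    · have : 81 * (x - 1) / (x - 81) - 81 = 32400 / (5 * (x - 81)) := by
        field_simp; ring
      rw [this, ht]; field_simp; ring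
    · unfold dup
      have h0' : 81 * (x - 1) / (x - 81) ≠ 0 := div_ne_zero (mul_ne_zero (by norm_num) hx1) hx81
      have h1 : 81 * (x - 1) / (x - 81) - 1 ≠ 0 := by
        intro h0; apply hx0; field_simp at h0; linarith
      have h2 : 81 * (x - 1) / (x - 81) - 81 ≠ 0 := by
        intro h0; field_simp at h0; linarith
      rw [div_eq_div_iff (mul_ne_zero (by norm_num) (mul_ne_zero (mul_ne_zero h0' h1) h2))
        (mul_ne_zero (by norm_num) hprod)]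
      field_simp
      ring
  · -- δ = -5 : x' = (x - 81) / (x - 1)
    have hr0 : r ≠ 0 := by
      rintro rfl; apply hx1; linarith
    have ht0 : t ≠ 0 := by
      rintro rfl; apply hx81; linarith
    refine ⟨(x - 81) / (x - 1), ?_, ?_, ?_, ⟨t / r, ?_⟩, ⟨20 / r, ?_⟩, ⟨20 * s / r, ?_⟩, ?_⟩
    · exact div_ne_zero hx81 hx1
    · intro h0; rw [div_eq_iff hx1] at h0; linarith
    · intro h0; rw [div_eq_iff hx1] at h0; apply hx0; linarith
    · have : (x - 81) / (x - 1) = (-5 * (x - 81)) / (-5 * (x - 1)) := by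
        field_simp
      rw [this, hr, ht]; field_simp
    · have : (x - 81) / (x - 1) - 1 = 400 / (-5 * (x - 1)) := by
        field_simp; ring
      rw [this, hr]; field_simp; ring
    · have : (x - 81) / (x - 1) - 81 = 400 * x / (-5 * (x - 1)) := by
        field_simp; ring
      rw [this, hr, hs]; field_simp; ring
    · unfold dup
      have h0' : (x - 81) / (x - 1) ≠ 0 := div_ne_zero hx81 hx1
      have h1 : (x - 81) / (x - 1) - 1 ≠ 0 := by
        intro h0; field_simp at h0; linarith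
      have h2 : (x - 81) / (x - 1) - 81 ≠ 0 := by
        intro h0; apply hx0; field_simp at h0; linarith
      rw [div_eq_div_iff (mul_ne_zero (by norm_num) (mul_ne_zero (mul_ne_zero h0' h1) h2))
        (mul_ne_zero (by norm_num) hprod)]
      field_simp
      ring

end Fermat.Agent.S51Sel
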