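/-
S51 (P6), piece T3c (helper34): Galois descent for a stable line in `E[p]`.

Generic facts about `E[p] = Submodule.torsionBy ℤ (E⁄ℚ̄).Point p`:
* if `E[p]` has at most `p ^ 2` elements, a proper nonzero `ZMod p`-submodule has rank one;
* the `x`-coordinate of a nonzero point of a Galois-stable line in `E[3]` is rational.
-/
import Mathlib
import Fermat.Prelude.Def_FLTPrelim_GaloisRep

set_option autoImplicit false

open WeierstrassCurve WeierstrassCurve.Affine WeierstrassCurve.Affine.Point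

namespace Fermat.Agent.S51T3c

local notation "Qbar" => AlgebraicClosure ℚ

/-- An element of `ℚ̄` fixed by the whole Galois group is rational. -/
theorem exists_rat_of_forall_galois_fixed (x : Qbar)
    (hx : ∀ σ : Qbar ≃ₐ[ℚ] Qbar, σ x = x) : ∃ r : ℚ, algebraMap ℚ Qbar r = x := by
  have h1 : Algebra.IsAlgebraic ℚ Qbar := AlgebraicClosure.isAlgebraic ℚ
  have h2 : IsAlgClosure ℚ Qbar := ⟨inferInstance, h1⟩
  have h3 : IsGalois ℚ Qbar := IsAlgClosure.isGalois ℚ Qbar
  exact (InfiniteGalois.mem_range_algebraMap_iff_fixed (k := ℚ) (K := Qbar) x).mpr hx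

variable {E : WeierstrassCurve ℚ}

/-- The Galois action on a torsion point, on underlying points. -/
theorem coe_smul_torsion (n : ℕ) (σ : Qbar ≃ₐ[ℚ] Qbar)
    (P : Submodule.torsionBy ℤ (E⁄Qbar).Point n) :
    ((σ • P : Submodule.torsionBy ℤ (E⁄Qbar).Point n) : (E⁄Qbar).Point) =
      Point.map (W' := E) σ.toAlgHom (P : (E⁄Qbar).Point) := rfl

/-- A proper nonzero submodule of a `ZMod p`-module with at most `p ^ 2` elements has rank `1`. -/
theorem finrank_eq_one_of_card_le {p : ℕ} [Fact p.Prime] {V : Type*} [AddCommGroup V]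
    [Module (ZMod p) V] [Finite V] (hcard : Nat.card V ≤ p ^ 2)
    (N : Submodule (ZMod p) V) (hbot : N ≠ ⊥) (htop : N ≠ ⊤) :
    Module.finrank (ZMod p) N = 1 := by
  have hp : p.Prime := Fact.out
  have : Module.Finite (ZMod p) V := Module.Finite.of_finite
  have h1 : Nat.card V = p ^ Module.finrank (ZMod p) V := by
    rw [Module.natCard_eq_pow_finrank (K := ZMod p) (V := V), Nat.card_zmod]
  have h2 : Module.finrank (ZMod p) V ≤ 2 := by
    rw [h1] at hcard
    exact (Nat.pow_le_pow_iff_right hp.one_lt).mp hcard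
  have h3 : Module.finrank (ZMod p) N < Module.finrank (ZMod p) V := Submodule.finrank_lt htop
  have h4 : 1 ≤ Module.finrank (ZMod p) N := Submodule.one_le_finrank_iff.mpr hbot
  omega

/-- In a rank-one Galois-stable submodule of `E[3]`, the `x`-coordinate of a nonzero point is
fixed by every element of the Galois group. -/
theorem x_fixed_of_stable_line
    (N : Submodule (ZMod 3) (Submodule.torsionBy ℤ (E⁄Qbar).Point ((3 : ℕ) : ℤ)))
    (hN : IsGaloisStable ℚ N) (hrank : Module.finrank (ZMod 3) N = 1)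
    (P : Submodule.torsionBy ℤ (E⁄Qbar).Point ((3 : ℕ) : ℤ)) (hPN : P ∈ N) (hP0 : P ≠ 0)
    (x y : Qbar) (h : (E⁄Qbar).Nonsingular x y)
    (hP : (P : (E⁄Qbar).Point) = Point.some x y h) (σ : Qbar ≃ₐ[ℚ] Qbar) : σ x = x := by
  have hQN : σ • P ∈ N := hN σ P hPN
  have hP0' : (⟨P, hPN⟩ : N) ≠ 0 := fun h0 => hP0 (congrArg Subtype.val h0)
  obtain ⟨c, hc⟩ := (finrank_eq_one_iff_of_nonzero' (⟨P, hPN⟩ : N) hP0').mp hrank ⟨σ • P, hQN⟩
  have hc' : c • P = σ • P := congrArg Subtype.val hc
  have hσ : ((σ • P : Submodule.torsionBy ℤ (E⁄Qbar).Point ((3 : ℕ) : ℤ)) : (E⁄Qbar).Point) =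
      Point.map (W' := E) σ.toAlgHom (Point.some x y h) := by
    rw [coe_smul_torsion, hP]
  rw [Point.map_some] at hσ
  have h3 : (3 : ℤ) • (P : (E⁄Qbar).Point) = 0 := by
    have := P.2
    rwa [Submodule.mem_torsionBy_iff] at this
  -- the three possible values of `c`
  have hall : ∀ d : ZMod 3, d = 0 ∨ d = 1 ∨ d = 2 := by decide
  have hcases : c = 0 ∨ c = 1 ∨ c = 2 := hall c
  rcases hcases with rfl | rfl | rfl
  · -- `σ • P = 0`, impossible
    exfalso
    rw [zero_smul] at hc'
    apply hP0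
    have : σ⁻¹ • (σ • P) = P := inv_smul_smul σ P
    rw [← this, ← hc', smul_zero]
  · -- `σ • P = P`
    rw [one_smul] at hc'
    have h1 : ((σ • P : Submodule.torsionBy ℤ (E⁄Qbar).Point ((3 : ℕ) : ℤ)) : (E⁄Qbar).Point) =
        Point.some x y h := by rw [← hc', hP]
    rw [hσ] at h1
    have := (Point.some.injEq _ _ _ _ _ _).mp h1
    exact this.1
  · -- `σ • P = 2 • P = -P`
    have h2 : ((2 : ZMod 3) • P : Submodule.torsionBy ℤ (E⁄Qbar).Point ((3 : ℕ) : ℤ)) = -P := by
      have : (2 : ZMod 3) = -1 := by decide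
      rw [this, neg_smul, one_smul]
    rw [h2] at hc'
    have h1 : ((σ • P : Submodule.torsionBy ℤ (E⁄Qbar).Point ((3 : ℕ) : ℤ)) : (E⁄Qbar).Point) =
        -Point.some x y h := by rw [← hc', Submodule.coe_neg, hP]
    rw [hσ, Point.neg_some] at h1
    have := (Point.some.injEq _ _ _ _ _ _).mp h1
    exact this.1

end Fermat.Agent.S51T3c
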