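import Fermat.Agent.S51.TorsionIdent

/-!
# S51 torsion core, part 2: the group law versus division polynomials (`n = 2, 3, 5`)
-/

set_option autoImplicit false

open Polynomial

namespace Fermat.Agent.S51Torsion

open WeierstrassCurve WeierstrassCurve.Affine

variable {F : Type*} [Field F] {W : WeierstrassCurve.Affine F}

/-- On the curve, `Ψ₂Sq(x) = (2y + a₁x + a₃)²`. -/
lemma fF_eq_sq {x y : F} (h : W.Equation x y) :
    fF W x = (2 * y + W.a₁ * x + W.a₃) ^ 2 := by
  rw [equation_iff] at h
  simp only [fF, WeierstrassCurve.b₂, WeierstrassCurve.b₄, WeierstrassCurve.b₆]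
  linear_combination (-4 : F) * h

lemma sub_negY (x y : F) : y - W.negY x y = 2 * y + W.a₁ * x + W.a₃ := by
  simp only [negY]; ring

lemma eq_negY_iff {x y : F} (h : W.Equation x y) : y = W.negY x y ↔ fF W x = 0 := by
  rw [fF_eq_sq h, sq_eq_zero_iff, ← sub_negY, sub_eq_zero]

variable [DecidableEq F]

/-- Duplication formula for the `x`-coordinate. -/
lemma dup_X {x y : F} (h : W.Equation x y) (hy : y ≠ W.negY x y) :
    W.addX x x (W.slope x x y y) * fF W x = phiF W x := by
  have hw : 2 * y + W.a₁ * x + W.a₃ ≠ 0 := by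
    rw [← sub_negY]; exact sub_ne_zero.mpr hy
  rw [slope_of_Y_ne rfl hy, sub_negY, fF_eq_sq h, addX]
  rw [equation_iff] at h
  set w := 2 * y + W.a₁ * x + W.a₃ with hwdef
  set num := 3 * x ^ 2 + 2 * W.a₂ * x + W.a₄ - W.a₁ * y with hnum
  have key : num ^ 2 + W.a₁ * num * w - (W.a₂ + 2 * x) * w ^ 2 = phiF W x := by
    simp only [phiF, WeierstrassCurve.b₄, WeierstrassCurve.b₆, WeierstrassCurve.b₈, hwdef, hnum]
    linear_combination (-(8 * x + W.a₁ ^ 2 + 4 * W.a₂)) * h
  rw [← key]
  field_simp
  ring


omit [DecidableEq F] in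
/-- If `2P = 0` (i.e. `Ψ₂Sq(x) = 0`) at a nonsingular point then `Ψ₃(x) ≠ 0`. -/
lemma psi3F_ne_zero_of_fF_eq_zero [CharZero F] {x y : F} (h : W.Nonsingular x y)
    (hf : fF W x = 0) : psi3F W x ≠ 0 := by
  have hw : 2 * y + W.a₁ * x + W.a₃ = 0 := by
    have := fF_eq_sq h.1
    rw [hf] at this
    exact (sq_eq_zero_iff.mp this.symm)
  have hX : W.a₁ * y - (3 * x ^ 2 + 2 * W.a₂ * x + W.a₄) ≠ 0 := by
    rcases ((nonsingular_iff' x y).mp h).2 with h1 | h1
    · exact h1
    · exact absurd hw h1
  intro h3
  have h16 := ident_psi3 W x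
  rw [h3, hf] at h16
  have hd : (12 * x ^ 2 + 2 * W.b₂ * x + 2 * W.b₄)
      = -4 * (W.a₁ * y - (3 * x ^ 2 + 2 * W.a₂ * x + W.a₄)) := by
    simp only [WeierstrassCurve.b₂, WeierstrassCurve.b₄]
    linear_combination (2 * W.a₁) * hw
  rw [hd] at h16
  have : (W.a₁ * y - (3 * x ^ 2 + 2 * W.a₂ * x + W.a₄)) ^ 2 = 0 := by
    have h16' : (16 : F) * (W.a₁ * y - (3 * x ^ 2 + 2 * W.a₂ * x + W.a₄)) ^ 2 = 0 := by
      linear_combination h16
    rcases mul_eq_zero.mp h16' with h0 | h0
    · norm_num at h0
    · exact h0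
  exact hX (sq_eq_zero_iff.mp this)

lemma three_zsmul_eq_zero_iff_add_self (P : W.Point) : (3 : ℤ) • P = 0 ↔ P + P = -P := by
  have h3 : (3 : ℤ) • P = P + P + P := by
    rw [show (3 : ℤ) = 1 + 1 + 1 by norm_num, add_zsmul, add_zsmul, one_zsmul]
  rw [h3]
  constructor
  · intro h; exact eq_neg_of_add_eq_zero_left h
  · intro h; rw [h]; exact neg_add_cancel P

/-- `3P = 0 ↔ Ψ₃(x(P)) = 0` for an affine point `P`. -/
theorem three_zsmul_some_eq_zero_iff [CharZero F] {x y : F} (h : W.Nonsingular x y) :
    (3 : ℤ) • (Point.some x y h) = 0 ↔ psi3F W x = 0 := by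
  rw [three_zsmul_eq_zero_iff_add_self]
  by_cases hy : y = W.negY x y
  · have hPP : Point.some x y h + Point.some x y h = 0 := Point.add_self_of_Y_eq hy
    have hf : fF W x = 0 := (eq_negY_iff h.1).mp hy
    rw [hPP]
    constructor
    · intro h0
      exact absurd (neg_eq_zero.mp h0.symm) (Point.some_ne_zero h)
    · intro h3
      exact absurd h3 (psi3F_ne_zero_of_fF_eq_zero h hf)
  · have hPP := Point.add_self_of_Y_ne (h₁ := h) hy
    have hf : fF W x ≠ 0 := fun h0 => hy ((eq_negY_iff h.1).mpr h0)
    have hdup := dup_X h.1 hy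
    rw [phiF_eq] at hdup
    constructor
    · intro h2
      rw [hPP, Point.neg_some, Point.some.injEq] at h2
      rw [h2.1] at hdup
      linear_combination hdup
    · intro hψ
      rw [hψ, sub_zero] at hdup
      have hx : W.addX x x (W.slope x x y y) = x := mul_right_cancel₀ hf hdup
      rw [hPP]
      rcases (Point.X_eq_iff (h₁ := nonsingular_add h h fun hxy => hy hxy.right) (h₂ := h)).mp hx
        with h1 | h1
      · exfalso
        rw [← hPP] at h1
        have : Point.some x y h = 0 := by
          have := congrArg (fun Q => Q - Point.some x y h) h1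
          simp at this
        exact Point.some_ne_zero h this
      · exact h1


/-! ### Existence of points with a given `x`-coordinate -/

omit [DecidableEq F] in
/-- Over an algebraically closed field of characteristic zero every `x` is the `x`-coordinate of
a point of the curve. -/
lemma exists_equation_of_X [IsAlgClosed F] [CharZero F] (x : F) : ∃ y : F, W.Equation x y := by
  obtain ⟨s, hs⟩ := IsAlgClosed.exists_eq_mul_self (fF W x)
  refine ⟨(s - W.a₁ * x - W.a₃) / 2, ?_⟩
  rw [equation_iff]
  simp only [fF, WeierstrassCurve.b₂, WeierstrassCurve.b₄, WeierstrassCurve.b₆] at hs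
  field_simp
  linear_combination -hs

omit [DecidableEq F] in
lemma exists_nonsingular_of_X [IsAlgClosed F] [CharZero F] (hΔ : W.Δ ≠ 0) (x : F) :
    ∃ y : F, W.Nonsingular x y := by
  obtain ⟨y, hy⟩ := exists_equation_of_X (W := W) x
  exact ⟨y, (equation_iff_nonsingular_of_Δ_ne_zero hΔ).mp hy⟩

/-- `E[3]` is nontrivial over an algebraically closed field of characteristic zero. -/
theorem nontrivial_torsionBy_three [IsAlgClosed F] [CharZero F] (hΔ : W.Δ ≠ 0) :
    Nontrivial (Submodule.torsionBy ℤ W.Point ((3 : ℕ) : ℤ)) := by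
  have hdeg : W.Ψ₃.degree ≠ 0 := by
    have h3 : (3 : F) ≠ 0 := by norm_num
    have hn := W.natDegree_Ψ₃ h3
    intro h0
    have := natDegree_eq_of_degree_eq_some (n := 0) (by simpa using h0)
    omega
  obtain ⟨x, hx⟩ := IsAlgClosed.exists_root W.Ψ₃ hdeg
  rw [IsRoot.def, eval_Ψ₃] at hx
  obtain ⟨y, hy⟩ := exists_nonsingular_of_X hΔ x
  have h3 : ((3 : ℕ) : ℤ) • (Point.some x y hy) = 0 := by
    have := (three_zsmul_some_eq_zero_iff hy).mpr hx
    simpa using this
  refine ⟨⟨⟨Point.some x y hy, (Submodule.mem_torsionBy_iff _ _).mpr h3⟩, 0, ?_⟩⟩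
  intro h0
  exact Point.some_ne_zero hy (congrArg Subtype.val h0)

/-! ### Cardinality bound -/

/-- If the `x`-coordinates of the nonzero `n`-torsion points are roots of a nonzero polynomial `p`,
then there are at most `2 * deg p + 1` such points. -/
theorem card_torsionBy_le (n : ℤ) (p : F[X]) (hp : p ≠ 0)
    (hroot : ∀ (x y : F) (h : W.Nonsingular x y), n • (Point.some x y h) = 0 → p.eval x = 0) :
    Finite (Submodule.torsionBy ℤ W.Point n) ∧
      Nat.card (Submodule.torsionBy ℤ W.Point n) ≤ 2 * p.natDegree + 1 := by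
  classical
  -- a choice of `y` for every `x`
  let ysel : F → F := fun x => if h : ∃ y, W.Nonsingular x y then h.choose else 0
  have hysel : ∀ x y, W.Nonsingular x y → W.Nonsingular x (ysel x) := by
    intro x y h
    have hex : ∃ y, W.Nonsingular x y := ⟨y, h⟩
    simp only [ysel, dif_pos hex]
    exact hex.choose_spec
  let R := p.roots.toFinset
  let g : Submodule.torsionBy ℤ W.Point n → Option (R × Bool) := fun P =>
    match hP : (P : W.Point) with
    | .zero => none
    | .some x y h =>
      if hx : x ∈ R then some (⟨x, hx⟩, decide (y = ysel x)) else none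
  have hmemR : ∀ (x y : F) (h : W.Nonsingular x y), n • (Point.some x y h) = 0 → x ∈ R := by
    intro x y h h0
    simp only [R, Multiset.mem_toFinset, mem_roots hp, IsRoot.def]
    exact hroot x y h h0
  have hg : Function.Injective g := by
    rintro ⟨P, hP⟩ ⟨Q, hQ⟩ hPQ
    rw [Submodule.mem_torsionBy_iff] at hP hQ
    apply Subtype.ext
    simp only
    cases P with
    | zero =>
      cases Q with
      | zero => rfl
      | some x y h =>
        exfalso
        have hx := hmemR x y h hQ
        simp only [g, dif_pos hx] at hPQ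
        exact absurd hPQ (by simp)
    | some x y h =>
      cases Q with
      | zero =>
        exfalso
        have hx := hmemR x y h hP
        simp only [g, dif_pos hx] at hPQ
        exact absurd hPQ (by simp)
      | some x' y' h' =>
        have hx := hmemR x y h hP
        have hx' := hmemR x' y' h' hQ
        simp only [g, dif_pos hx, dif_pos hx', Option.some.injEq, Prod.mk.injEq,
          Subtype.mk.injEq, decide_eq_decide] at hPQ
        obtain ⟨hxx, hyy⟩ := hPQ
        subst hxx
        have hyeq : y = y' := by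
          by_cases hy : y = ysel x
          · rw [hy, ← hyy.mp hy]
          · have hy' : y' ≠ ysel x := fun h0 => hy (hyy.mpr h0)
            have hs := hysel x y h
            have e1 := (Y_eq_of_X_eq h.1 hs.1 rfl).resolve_left hy
            have e2 := (Y_eq_of_X_eq h'.1 hs.1 rfl).resolve_left hy'
            rw [e1, e2]
        subst hyeq
        rfl
  refine ⟨Finite.of_injective g hg, ?_⟩
  have hcard := Nat.card_le_card_of_injective g hg
  refine hcard.trans ?_
  rw [Nat.card_eq_fintype_card, Fintype.card_option, Fintype.card_prod, Fintype.card_bool,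
    Fintype.card_coe]
  have hR : R.card ≤ p.natDegree := (Multiset.toFinset_card_le _).trans (card_roots' p)
  omega

/-- `E[3]` has at most `9` elements. -/
theorem card_torsionBy_three_le [CharZero F] :
    Finite (Submodule.torsionBy ℤ W.Point ((3 : ℕ) : ℤ)) ∧
      Nat.card (Submodule.torsionBy ℤ W.Point ((3 : ℕ) : ℤ)) ≤ 9 := by
  have h3 : (3 : F) ≠ 0 := by norm_num
  have := card_torsionBy_le (W := W) ((3 : ℕ) : ℤ) W.Ψ₃ (W.Ψ₃_ne_zero h3) (by
    intro x y h h0
    rw [eval_Ψ₃]
    exact (three_zsmul_some_eq_zero_iff h).mp (by simpa using h0))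
  rw [W.natDegree_Ψ₃ h3] at this
  exact this

end Fermat.Agent.S51Torsion
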