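/-
S51 (P6), interface lemma (T3) (helper34, on top of helper7's torsion core):
if the mod-3 representation of `E/ℚ` is reducible, the 3-division polynomial has a rational root.
-/
import Fermat.Agent.S51.Torsion
import Fermat.Agent.S51.T3c

set_option autoImplicit false

open WeierstrassCurve WeierstrassCurve.Affine WeierstrassCurve.Affine.Point

namespace Fermat.Agent.S51

local notation "Qbar" => AlgebraicClosure ℚ

theorem T3_exists_root (E : WeierstrassCurve ℚ) (hΔ : E.Δ ≠ 0)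
    (h : ¬ Affine.Point.GaloisRepIsIrreducible (K := AlgebraicClosure ℚ) ℚ E 3) :
    ∃ x : ℚ, 3 * x ^ 4 + E.b₂ * x ^ 3 + 3 * E.b₄ * x ^ 2 + 3 * E.b₆ * x + E.b₈ = 0 := by
  have hinj : Function.Injective (algebraMap ℚ Qbar) := (algebraMap ℚ Qbar).injective
  have hΔ' : (E⁄Qbar).Δ ≠ 0 := by
    change (E.map (algebraMap ℚ Qbar)).Δ ≠ 0
    rw [WeierstrassCurve.map_Δ]
    exact fun h0 => hΔ (hinj (by rw [h0, _root_.map_zero]))
  have hnt : Nontrivial (Submodule.torsionBy ℤ (E⁄Qbar).Point ((3 : ℕ) : ℤ)) :=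
    Fermat.Agent.S51Torsion.nontrivial_torsionBy_three (W := E⁄Qbar) hΔ'
  obtain ⟨hfin, hcard⟩ := Fermat.Agent.S51Torsion.card_torsionBy_three_le (W := E⁄Qbar)
  -- a stable proper nonzero submodule
  have hex : ∃ N : Submodule (ZMod 3) (Submodule.torsionBy ℤ (E⁄Qbar).Point ((3 : ℕ) : ℤ)),
      IsGaloisStable ℚ N ∧ N ≠ ⊥ ∧ N ≠ ⊤ := by
    by_contra hno
    apply h
    refine ⟨hnt, fun N hN => ?_⟩
    by_contra hN'
    rw [not_or] at hN'
    exact hno ⟨N, hN, hN'.1, hN'.2⟩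
  obtain ⟨N, hN, hbot, htop⟩ := hex
  have : Fact (Nat.Prime 3) := ⟨Nat.prime_three⟩
  have hrank : Module.finrank (ZMod 3) N = 1 :=
    Fermat.Agent.S51T3c.finrank_eq_one_of_card_le (p := 3) (by norm_num; exact hcard) N hbot htop
  obtain ⟨P, hPN, hP0⟩ := Submodule.exists_mem_ne_zero_of_ne_bot hbot
  -- the underlying point
  have h3 : ((3 : ℕ) : ℤ) • (P : (E⁄Qbar).Point) = 0 := by
    have := P.2
    rwa [Submodule.mem_torsionBy_iff] at this
  have hP0' : (P : (E⁄Qbar).Point) ≠ 0 := fun h0 => hP0 (Subtype.ext h0)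
  rcases hPv : (P : (E⁄Qbar).Point) with _ | ⟨x, y, hxy⟩
  · exact absurd hPv hP0'
  · have hfix : ∀ σ : Qbar ≃ₐ[ℚ] Qbar, σ x = x := fun σ =>
      Fermat.Agent.S51T3c.x_fixed_of_stable_line N hN hrank P hPN hP0 x y hxy hPv σ
    obtain ⟨r, hr⟩ := Fermat.Agent.S51T3c.exists_rat_of_forall_galois_fixed x hfix
    refine ⟨r, ?_⟩
    rw [hPv] at h3
    have hpsi : Fermat.Agent.S51Torsion.psi3F (E⁄Qbar) x = 0 :=
      (Fermat.Agent.S51Torsion.three_zsmul_some_eq_zero_iff hxy).mp (by exact_mod_cast h3)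
    apply hinj
    rw [_root_.map_zero, ← hpsi, Fermat.Agent.S51Torsion.psi3F, ← hr]
    change _ = 3 * _ ^ 4 + (E.map (algebraMap ℚ Qbar)).b₂ * _ ^ 3 +
      3 * (E.map (algebraMap ℚ Qbar)).b₄ * _ ^ 2 + 3 * (E.map (algebraMap ℚ Qbar)).b₆ * _ +
      (E.map (algebraMap ℚ Qbar)).b₈
    rw [WeierstrassCurve.map_b₂, WeierstrassCurve.map_b₄, WeierstrassCurve.map_b₆,
      WeierstrassCurve.map_b₈]
    simp only [map_add, map_mul, map_pow, map_ofNat]

end Fermat.Agent.S51
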