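import Fermat.Agent.S51.Torsion

/-!
# S51 torsion core, part 3: `5P = 0 ↔ Ψ₅(x(P)) = 0`, `E[5]` nontrivial, `#E[5] ≤ 25`
-/

set_option autoImplicit false

open Polynomial

namespace Fermat.Agent.S51Torsion

open WeierstrassCurve WeierstrassCurve.Affine

variable {F : Type*} [Field F] [DecidableEq F] {W : WeierstrassCurve.Affine F}

lemma grp_aux1 {G : Type*} [AddCommGroup G] (P Q : G) (hQ : Q = -P) (hQQ : Q + Q = 0) :
    P + P = 0 := by
  subst hQ
  have := congrArg (fun R => -R) hQQ
  simpa [neg_add] using this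

lemma grp_aux2 {G : Type*} [AddCommGroup G] (P Q : G) (hQ : Q = -P) (h4 : Q + Q = -P) :
    P = 0 := by
  subst hQ
  have h : -P + -P = -P + 0 := by rw [add_zero]; exact h4
  exact neg_eq_zero.mp (add_left_cancel h)

lemma grp_aux3 {G : Type*} [AddCommGroup G] (P Q : G) (hPP : P + P = Q) (hQQ : Q + Q = P) :
    Q = -P := by
  have e : Q + (P + P) = P := by rw [hPP]; exact hQQ
  have l : Q = Q + (P + P) - P - P := by abel
  rw [l, e]
  abel

/-- The two cases of doubling an affine point. -/
lemma double_cases {x y : F} (h : W.Nonsingular x y) :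
    (fF W x = 0 ∧ Point.some x y h + Point.some x y h = 0) ∨
    (fF W x ≠ 0 ∧ ∃ (x₂ y₂ : F) (h₂ : W.Nonsingular x₂ y₂),
      Point.some x y h + Point.some x y h = Point.some x₂ y₂ h₂ ∧ x₂ * fF W x = phiF W x) := by
  by_cases hy : y = W.negY x y
  · exact Or.inl ⟨(eq_negY_iff h.1).mp hy, Point.add_self_of_Y_eq hy⟩
  · refine Or.inr ⟨fun h0 => hy ((eq_negY_iff h.1).mpr h0), _, _, _,
      Point.add_self_of_Y_ne (h₁ := h) hy, dup_X h.1 hy⟩

lemma five_zsmul_eq_zero_iff (P : W.Point) : (5 : ℤ) • P = 0 ↔ (P + P) + (P + P) = -P := by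
  have h5 : (5 : ℤ) • P = (P + P) + (P + P) + P := by
    rw [show (5 : ℤ) = 1 + 1 + 1 + 1 + 1 by norm_num, add_zsmul, add_zsmul, add_zsmul, add_zsmul,
      one_zsmul]
    abel
  rw [h5]
  constructor
  · intro h; exact eq_neg_of_add_eq_zero_left h
  · intro h; rw [h]; exact neg_add_cancel P

omit [DecidableEq F] in
/-- `f(x(2P)) * f(x(P))^3 = preΨ₄(x(P))^2`. -/
lemma fF_double {x x₂ : F} (hdup : x₂ * fF W x = phiF W x) :
    fF W x₂ * fF W x ^ 3 = pre4F W x ^ 2 := by
  rw [← ident_N1, ← hdup]
  simp only [fF]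
  ring

omit [DecidableEq F] in
/-- `φ₂(x(2P)) * f(x(P))^4 - x * f(x(2P)) * f(x(P))^4 = -Ψ₃Ψ₅`. -/
lemma phiF_double {x x₂ : F} (hdup : x₂ * fF W x = phiF W x) :
    (phiF W x₂ - x * fF W x₂) * fF W x ^ 4 = -(psi3F W x * psi5F W x) := by
  rw [← ident_N2, ← fF_double hdup, ← hdup]
  simp only [phiF]
  ring

/-- `5P = 0 ↔ Ψ₅(x(P)) = 0` for an affine point `P`. -/
theorem five_zsmul_some_eq_zero_iff [CharZero F] {x y : F} (h : W.Nonsingular x y) :
    (5 : ℤ) • (Point.some x y h) = 0 ↔ psi5F W x = 0 := by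
  rw [five_zsmul_eq_zero_iff]
  have hP0 : Point.some x y h ≠ 0 := Point.some_ne_zero h
  rcases double_cases h with ⟨hf, hPP⟩ | ⟨hf, x₂, y₂, h₂, hPP, hdup⟩
  · -- `2P = 0`
    rw [hPP, add_zero]
    constructor
    · intro h0
      exact absurd (neg_eq_zero.mp h0.symm) hP0
    · intro h5
      exfalso
      have h3 := psi3F_ne_zero_of_fF_eq_zero h hf
      simp only [psi5F, hf] at h5
      have : psi3F W x ^ 3 = 0 := by linear_combination -h5
      exact h3 (pow_eq_zero_iff (by norm_num) |>.mp this)
  · rw [hPP]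
    have hQ0 : Point.some x₂ y₂ h₂ ≠ 0 := Point.some_ne_zero h₂
    have hfd := fF_double hdup
    have hpd := phiF_double hdup
    -- if `Ψ₃(x) = 0` then `2P = -P`
    have h3P : psi3F W x = 0 → Point.some x₂ y₂ h₂ = -Point.some x y h := by
      intro h3
      have := (three_zsmul_some_eq_zero_iff h).mpr h3
      rw [three_zsmul_eq_zero_iff_add_self, hPP] at this
      exact this
    rcases double_cases h₂ with ⟨hf₂, hQQ⟩ | ⟨hf₂, x₄, y₄, h₄, hQQ, hdup₂⟩
    · -- `4P = 0`
      rw [hQQ]
      have hpre : pre4F W x = 0 := by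
        rw [hf₂, zero_mul] at hfd
        exact pow_eq_zero_iff (by norm_num) |>.mp hfd.symm
      constructor
      · intro h0
        exact absurd (neg_eq_zero.mp h0.symm) hP0
      · intro h5
        exfalso
        simp only [psi5F, hpre, zero_mul, zero_sub, neg_eq_zero] at h5
        have h3 : psi3F W x = 0 := pow_eq_zero_iff (by norm_num) |>.mp h5
        have hQ := h3P h3
        -- `Q = -P` and `Q + Q = 0` give `P + P = 0`, i.e. `Q = 0`
        have := grp_aux1 _ _ hQ hQQ
        rw [hPP] at this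
        exact hQ0 this
    · rw [hQQ]
      constructor
      · intro h4
        -- `x₄ = x`
        rw [Point.neg_some, Point.some.injEq] at h4
        have hx4 : x₄ = x := h4.1
        rw [hx4] at hdup₂
        have hprod : psi3F W x * psi5F W x = 0 := by
          have : (phiF W x₂ - x * fF W x₂) * fF W x ^ 4 = 0 := by
            rw [hdup₂, sub_self, zero_mul]
          rw [this] at hpd
          exact neg_eq_zero.mp hpd.symm
        rcases mul_eq_zero.mp hprod with h3 | h5
        · exfalso
          have hQ := h3P h3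
          -- `Q + Q = -P` and `Q = -P`: so `-P + -P = -P`, `P = 0`
          have h4' : Point.some x₂ y₂ h₂ + Point.some x₂ y₂ h₂ = -Point.some x y h := by
            rw [hQQ, Point.neg_some, Point.some.injEq]
            exact ⟨hx4, h4.2⟩
          exact hP0 (grp_aux2 _ _ hQ h4')
        · exact h5
      · intro h5
        have hx4 : x₄ = x := by
          have h1 : (phiF W x₂ - x * fF W x₂) * fF W x ^ 4 = 0 := by
            rw [hpd, h5, mul_zero, neg_zero]
          have h2 : phiF W x₂ - x * fF W x₂ = 0 := by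
            rcases mul_eq_zero.mp h1 with h2 | h2
            · exact h2
            · exact absurd (pow_eq_zero_iff (by norm_num) |>.mp h2) hf
          have h3 : x₄ * fF W x₂ = x * fF W x₂ := by
            rw [hdup₂]; linear_combination h2
          exact mul_right_cancel₀ hf₂ h3
        rcases (Point.X_eq_iff (h₁ := h₄) (h₂ := h)).mp hx4 with h1 | h1
        · -- `4P = P`: then `3P = 0`, so `Ψ₃(x) = 0`, so `preΨ₄(x) = 0`, so `f(x₂) = 0`
          exfalso
          have h3 : psi3F W x = 0 := by
            apply (three_zsmul_some_eq_zero_iff h).mp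
            rw [three_zsmul_eq_zero_iff_add_self, hPP]
            -- `Q + Q = P` with `Q = P + P`
            have hQQ' : Point.some x₂ y₂ h₂ + Point.some x₂ y₂ h₂ = Point.some x y h := by
              rw [hQQ, h1]
            exact grp_aux3 _ _ hPP hQQ'
          have hpre : pre4F W x = 0 := by
            simp only [psi5F, h3] at h5
            have h6 : pre4F W x * fF W x ^ 2 = 0 := by linear_combination h5
            rcases mul_eq_zero.mp h6 with h7 | h7
            · exact h7
            · exact absurd (pow_eq_zero_iff (by norm_num) |>.mp h7) hf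
          rw [hpre] at hfd
          have h8 : fF W x₂ * fF W x ^ 3 = 0 := by rw [hfd]; ring
          rcases mul_eq_zero.mp h8 with h9 | h9
          · exact hf₂ h9
          · exact absurd (pow_eq_zero_iff (by norm_num) |>.mp h9) hf
        · exact h1


omit [DecidableEq F] in
lemma natDegree_preΨ'_five [CharZero F] : (W.preΨ' 5).natDegree = 12 := by
  have h5 : ((5 : ℕ) : F) ≠ 0 := by norm_num
  rw [W.natDegree_preΨ' h5]
  have : ¬ Even 5 := by decide
  simp [this]

/-- `E[5]` is nontrivial over an algebraically closed field of characteristic zero. -/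
theorem nontrivial_torsionBy_five [IsAlgClosed F] [CharZero F] (hΔ : W.Δ ≠ 0) :
    Nontrivial (Submodule.torsionBy ℤ W.Point ((5 : ℕ) : ℤ)) := by
  have hdeg : (W.preΨ' 5).degree ≠ 0 := by
    have hn := natDegree_preΨ'_five (W := W)
    intro h0
    have := natDegree_eq_of_degree_eq_some (n := 0) (by simpa using h0)
    omega
  obtain ⟨x, hx⟩ := IsAlgClosed.exists_root (W.preΨ' 5) hdeg
  rw [IsRoot.def, eval_preΨ'_five] at hx
  obtain ⟨y, hy⟩ := exists_nonsingular_of_X hΔ x
  have h5 : ((5 : ℕ) : ℤ) • (Point.some x y hy) = 0 := by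
    have := (five_zsmul_some_eq_zero_iff hy).mpr hx
    simpa using this
  refine ⟨⟨⟨Point.some x y hy, (Submodule.mem_torsionBy_iff _ _).mpr h5⟩, 0, ?_⟩⟩
  intro h0
  exact Point.some_ne_zero hy (congrArg Subtype.val h0)

/-- `E[5]` has at most `25` elements. -/
theorem card_torsionBy_five_le [CharZero F] :
    Finite (Submodule.torsionBy ℤ W.Point ((5 : ℕ) : ℤ)) ∧
      Nat.card (Submodule.torsionBy ℤ W.Point ((5 : ℕ) : ℤ)) ≤ 25 := by
  have h5 : ((5 : ℕ) : F) ≠ 0 := by norm_num
  have := card_torsionBy_le (W := W) ((5 : ℕ) : ℤ) (W.preΨ' 5) (W.preΨ'_ne_zero h5) (by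
    intro x y h h0
    rw [eval_preΨ'_five]
    exact (five_zsmul_some_eq_zero_iff h).mp (by simpa using h0))
  rw [natDegree_preΨ'_five] at this
  exact this

end Fermat.Agent.S51Torsion
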