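import Mathlib
import Fermat.Prelude.Def_FLTPrelim_GaloisRep
import Fermat.Agent.S51.TorsionFive

/-!
# S51: from a reducible mod-`p` representation to a Galois-stable point (generic glue)

If `E[p]` is nontrivial and has fewer than `p ^ 3` elements, and the mod-`p` representation is
not irreducible, then there is a nonzero `p`-torsion point `P` such that every Galois conjugate
of `P` is a multiple of `P`.
-/

set_option autoImplicit false

namespace Fermat.Agent.S51T5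

open WeierstrassCurve WeierstrassCurve.Affine WeierstrassCurve.Affine.Point

/-- scalar multiplication by `c : ZMod p` on a `ZMod p`-module is an integer multiple. -/
lemma zmod_smul_eq_zsmul {p : ℕ} [NeZero p] {M : Type*} [AddCommGroup M] [Module (ZMod p) M]
    (c : ZMod p) (x : M) : c • x = ((c.val : ℕ) : ℤ) • x := by
  conv_lhs => rw [← ZMod.natCast_zmod_val c]
  rw [Nat.cast_smul_eq_nsmul, natCast_zsmul]

theorem exists_stable_point (E : WeierstrassCurve ℚ) (p : ℕ) [hp : Fact p.Prime]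
    (hnt : Nontrivial (Submodule.torsionBy ℤ (E⁄(AlgebraicClosure ℚ)).Point p))
    (hfin : Finite (Submodule.torsionBy ℤ (E⁄(AlgebraicClosure ℚ)).Point p))
    (hcard : Nat.card (Submodule.torsionBy ℤ (E⁄(AlgebraicClosure ℚ)).Point p) < p ^ 3)
    (h : ¬ GaloisRepIsIrreducible (K := AlgebraicClosure ℚ) ℚ E p) :
    ∃ P : (E⁄(AlgebraicClosure ℚ)).Point, P ≠ 0 ∧ p • P = 0 ∧
      ∀ σ : AlgebraicClosure ℚ ≃ₐ[ℚ] AlgebraicClosure ℚ, ∃ k : ℤ, σ • P = k • P := by
  classical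
  have : NeZero p := ⟨hp.out.ne_zero⟩
  -- extract a stable proper nonzero submodule
  have h' : ∃ N : Submodule (ZMod p) (Submodule.torsionBy ℤ (E⁄(AlgebraicClosure ℚ)).Point p),
      IsGaloisStable ℚ N ∧ N ≠ ⊥ ∧ N ≠ ⊤ := by
    by_contra hcon
    apply h
    refine ⟨hnt, fun N hN => ?_⟩
    by_contra hN'
    push Not at hN'
    exact hcon ⟨N, hN, hN'.1, hN'.2⟩
  obtain ⟨N, hNstab, hNbot, hNtop⟩ := h'
  -- dimension count
  let _ : Fintype (Submodule.torsionBy ℤ (E⁄(AlgebraicClosure ℚ)).Point p) := Fintype.ofFinite _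
  have : Module.Finite (ZMod p) (Submodule.torsionBy ℤ (E⁄(AlgebraicClosure ℚ)).Point p) :=
    Module.Finite.of_finite
  have hVcard := Module.card_eq_pow_finrank (K := ZMod p)
    (V := Submodule.torsionBy ℤ (E⁄(AlgebraicClosure ℚ)).Point p)
  rw [ZMod.card, ← Nat.card_eq_fintype_card] at hVcard
  have hV2 : Module.finrank (ZMod p) (Submodule.torsionBy ℤ (E⁄(AlgebraicClosure ℚ)).Point p)
      ≤ 2 := by
    by_contra hgt
    push Not at hgt
    have : p ^ 3 ≤ Nat.card (Submodule.torsionBy ℤ (E⁄(AlgebraicClosure ℚ)).Point p) := by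
      rw [hVcard]
      exact Nat.pow_le_pow_right hp.out.pos hgt
    omega
  have hNlt := Submodule.finrank_lt hNtop
  have hN0 : Module.finrank (ZMod p) N ≠ 0 := by
    intro h0
    exact hNbot (Submodule.finrank_eq_zero.mp h0)
  have hN1 : Module.finrank (ZMod p) N = 1 := by omega
  obtain ⟨P, hPN, hP0⟩ := Submodule.exists_mem_ne_zero_of_ne_bot hNbot
  have hspan := (finrank_eq_one_iff_of_nonzero' (⟨P, hPN⟩ : N)
    (fun h0 => hP0 (congrArg Subtype.val h0))).mp hN1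
  refine ⟨P.1, fun h0 => hP0 (Subtype.ext h0), ?_, fun σ => ?_⟩
  · have := P.2
    rw [Submodule.mem_torsionBy_iff] at this
    rw [← natCast_zsmul]
    exact this
  · obtain ⟨c, hc⟩ := hspan ⟨σ • P, hNstab σ P hPN⟩
    refine ⟨((c.val : ℕ) : ℤ), ?_⟩
    have h1 : c • P = σ • P := congrArg Subtype.val hc
    have h2 : (c • P : Submodule.torsionBy ℤ (E⁄(AlgebraicClosure ℚ)).Point p)
        = ((c.val : ℕ) : ℤ) • P := zmod_smul_eq_zsmul c P
    have h3 : ((σ • P : Submodule.torsionBy ℤ (E⁄(AlgebraicClosure ℚ)).Point p) :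
        (E⁄(AlgebraicClosure ℚ)).Point) = σ • (P : (E⁄(AlgebraicClosure ℚ)).Point) := rfl
    rw [← h3, ← h1, h2]
    rfl

lemma baseChange_Δ_ne_zero (E : WeierstrassCurve ℚ) (hΔ : E.Δ ≠ 0) :
    (E⁄(AlgebraicClosure ℚ)).Δ ≠ 0 := by
  have h : (E⁄(AlgebraicClosure ℚ)).Δ = algebraMap ℚ (AlgebraicClosure ℚ) E.Δ :=
    WeierstrassCurve.map_Δ E (algebraMap ℚ (AlgebraicClosure ℚ))
  rw [h]
  exact (map_ne_zero_iff _ (algebraMap ℚ (AlgebraicClosure ℚ)).injective).mpr hΔ

/-- T5a + T5b + glue: a reducible mod-5 representation gives a stable point of order 5. -/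
theorem exists_stable_point_five (E : WeierstrassCurve ℚ) (hΔ : E.Δ ≠ 0)
    (h : ¬ GaloisRepIsIrreducible (K := AlgebraicClosure ℚ) ℚ E 5) :
    ∃ P : (E⁄(AlgebraicClosure ℚ)).Point, P ≠ 0 ∧ (5 : ℕ) • P = 0 ∧
      ∀ σ : AlgebraicClosure ℚ ≃ₐ[ℚ] AlgebraicClosure ℚ, ∃ k : ℤ, σ • P = k • P := by
  have : Fact (Nat.Prime 5) := ⟨by norm_num⟩
  have hΔ' := baseChange_Δ_ne_zero E hΔ
  have hnt := Fermat.Agent.S51Torsion.nontrivial_torsionBy_five
    (W := (E⁄(AlgebraicClosure ℚ))) hΔ'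
  obtain ⟨hfin, hcard⟩ := Fermat.Agent.S51Torsion.card_torsionBy_five_le
    (W := (E⁄(AlgebraicClosure ℚ)))
  exact exists_stable_point E 5 hnt hfin (lt_of_le_of_lt hcard (by norm_num)) h

/-- T3 analogue: a reducible mod-3 representation gives a stable point of order 3. -/
theorem exists_stable_point_three (E : WeierstrassCurve ℚ) (hΔ : E.Δ ≠ 0)
    (h : ¬ GaloisRepIsIrreducible (K := AlgebraicClosure ℚ) ℚ E 3) :
    ∃ P : (E⁄(AlgebraicClosure ℚ)).Point, P ≠ 0 ∧ (3 : ℕ) • P = 0 ∧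
      ∀ σ : AlgebraicClosure ℚ ≃ₐ[ℚ] AlgebraicClosure ℚ, ∃ k : ℤ, σ • P = k • P := by
  have : Fact (Nat.Prime 3) := ⟨by norm_num⟩
  have hΔ' := baseChange_Δ_ne_zero E hΔ
  have hnt := Fermat.Agent.S51Torsion.nontrivial_torsionBy_three
    (W := (E⁄(AlgebraicClosure ℚ))) hΔ'
  obtain ⟨hfin, hcard⟩ := Fermat.Agent.S51Torsion.card_torsionBy_three_le
    (W := (E⁄(AlgebraicClosure ℚ)))
  exact exists_stable_point E 3 hnt hfin (lt_of_le_of_lt hcard (by norm_num)) h

end Fermat.Agent.S51T5
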