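/-
S51 (P6), interface lemma (T5) (helper12): if the mod-5 representation of `E/ℚ` is reducible,
there are rational `r, e` (`e ≠ 0`) satisfying the two kernel-polynomial relations.
Built from helper7's torsion core (`TorsionFive`), the generic glue `StablePoint` and
helper6's `T5c.Galois`.
-/
import Fermat.Agent.S51.StablePoint
import Fermat.Agent.S51.T5c.Galois

set_option autoImplicit false

open WeierstrassCurve WeierstrassCurve.Affine WeierstrassCurve.Affine.Point

namespace Fermat.Agent.S51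

theorem T5_exists_kernel (E : WeierstrassCurve ℚ) (hΔ : E.Δ ≠ 0)
    (h : ¬ Affine.Point.GaloisRepIsIrreducible (K := AlgebraicClosure ℚ) ℚ E 5) :
    ∃ r e : ℚ, e ≠ 0 ∧
      4 * r ^ 3 + E.b₂ * r ^ 2 + 2 * E.b₄ * r + E.b₆ = (E.b₂ + 12 * r) * e ∧
      3 * r ^ 4 + E.b₂ * r ^ 3 + 3 * E.b₄ * r ^ 2 + 3 * E.b₆ * r + E.b₈
        = 5 * e ^ 2 + (6 * r ^ 2 + E.b₂ * r + E.b₄) * e := by
  obtain ⟨P, hP, h5, hstab⟩ := Fermat.Agent.S51T5.exists_stable_point_five E hΔ h
  exact Fermat.Agent.S51T5c.exists_kernel_of_stable_point E P hP h5 hstab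

end Fermat.Agent.S51
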