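import Mathlib

/-!
# S51 / P6, piece (EC): glue from the integer descent statement ("Theorem A") to `EC_descent`

Theorem A (integers): `m^2 - n^2 = k^2`, `m^2 - 81 n^2 = l^2` implies `n = 0`.

For a rational point `(x, y)` of `y^2 = x (x - 1) (x - 81)` with `y ≠ 0`, the doubling formula
gives rational numbers `r1, r2, r3` with `r1^2 - r2^2 = 1` and `r1^2 - r3^2 = 81`
(`r1^2 = x(2P)`, `r2^2 = x(2P) - 1`, `r3^2 = x(2P) - 81`).  Clearing denominators gives an
integer solution of the system of Theorem A with `n ≠ 0`.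
-/

set_option autoImplicit false

namespace Fermat.Agent.S51Glue

/-- The doubling identities on `y^2 = x (x - 1) (x - 81)`. -/
theorem doubling_identity (x y : ℚ) (h : y ^ 2 = x * (x - 1) * (x - 81)) (hy : y ≠ 0) :
    ((x ^ 2 - 81) / (2 * y)) ^ 2 - ((x ^ 2 - 2 * x + 81) / (2 * y)) ^ 2 = 1 ∧
    ((x ^ 2 - 81) / (2 * y)) ^ 2 - ((x ^ 2 - 162 * x + 81) / (2 * y)) ^ 2 = 81 := by
  have h2y : (2 * y) ^ 2 ≠ 0 := pow_ne_zero _ (mul_ne_zero two_ne_zero hy)
  constructor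
  · rw [div_pow, div_pow, ← sub_div, div_eq_iff h2y]
    have : (2 * y) ^ 2 = 4 * (x * (x - 1) * (x - 81)) := by rw [← h]; ring
    rw [this]; ring
  · rw [div_pow, div_pow, ← sub_div, div_eq_iff h2y]
    have : (2 * y) ^ 2 = 4 * (x * (x - 1) * (x - 81)) := by rw [← h]; ring
    rw [this]; ring

/-- Rational form of Theorem A. -/
theorem no_rat_triple
    (hA : ∀ m n k l : ℤ, m ^ 2 - n ^ 2 = k ^ 2 → m ^ 2 - 81 * n ^ 2 = l ^ 2 → n = 0)
    (r1 r2 r3 : ℚ) (h1 : r1 ^ 2 - r2 ^ 2 = 1) (h2 : r1 ^ 2 - r3 ^ 2 = 81) : False := by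
  -- common denominator
  have hd1 : (r1.den : ℚ) ≠ 0 := by exact_mod_cast r1.den_nz
  have hd2 : (r2.den : ℚ) ≠ 0 := by exact_mod_cast r2.den_nz
  have hd3 : (r3.den : ℚ) ≠ 0 := by exact_mod_cast r3.den_nz
  have e1 : (r1.num : ℚ) = r1 * r1.den := by
    have := Rat.num_div_den r1
    field_simp at this ⊢
    exact this
  have e2 : (r2.num : ℚ) = r2 * r2.den := by
    have := Rat.num_div_den r2
    field_simp at this ⊢
    exact this
  have e3 : (r3.num : ℚ) = r3 * r3.den := by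
    have := Rat.num_div_den r3
    field_simp at this ⊢
    exact this
  set d : ℤ := (r1.den : ℤ) * r2.den * r3.den with hd
  set m : ℤ := r1.num * r2.den * r3.den with hm
  set k : ℤ := r2.num * r1.den * r3.den with hk
  set l : ℤ := r3.num * r1.den * r2.den with hl
  have hdne : d ≠ 0 := by
    rw [hd]
    have a1 : (r1.den : ℤ) ≠ 0 := by exact_mod_cast r1.den_nz
    have a2 : (r2.den : ℤ) ≠ 0 := by exact_mod_cast r2.den_nz
    have a3 : (r3.den : ℤ) ≠ 0 := by exact_mod_cast r3.den_nz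
    exact mul_ne_zero (mul_ne_zero a1 a2) a3
  have hmq : (m : ℚ) = r1 * d := by
    rw [hm, hd]; push_cast; rw [e1]; ring
  have hkq : (k : ℚ) = r2 * d := by
    rw [hk, hd]; push_cast; rw [e2]; ring
  have hlq : (l : ℚ) = r3 * d := by
    rw [hl, hd]; push_cast; rw [e3]; ring
  have E1 : m ^ 2 - d ^ 2 = k ^ 2 := by
    have : ((m ^ 2 - d ^ 2 : ℤ) : ℚ) = ((k ^ 2 : ℤ) : ℚ) := by
      push_cast
      rw [hmq, hkq]
      linear_combination (d : ℚ) ^ 2 * h1
    exact_mod_cast this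
  have E2 : m ^ 2 - 81 * d ^ 2 = l ^ 2 := by
    have : ((m ^ 2 - 81 * d ^ 2 : ℤ) : ℚ) = ((l ^ 2 : ℤ) : ℚ) := by
      push_cast
      rw [hmq, hlq]
      linear_combination (d : ℚ) ^ 2 * h2
    exact_mod_cast this
  exact hdne (hA m d k l E1 E2)

/-- (EC) from Theorem A. -/
theorem EC_descent_of_thmA
    (hA : ∀ m n k l : ℤ, m ^ 2 - n ^ 2 = k ^ 2 → m ^ 2 - 81 * n ^ 2 = l ^ 2 → n = 0) :
    ∀ x y : ℚ, y ^ 2 = x * (x - 1) * (x - 81) → y = 0 := by
  intro x y h
  by_contra hy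
  obtain ⟨h1, h2⟩ := doubling_identity x y h hy
  exact no_rat_triple hA _ _ _ h1 h2

end Fermat.Agent.S51Glue
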