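import Mathlib

/-!
# S51 / P6: height-free descent, part (a): the twisted systems

System (A): `m^2 - n^2 = k^2`, `m^2 - 81 n^2 = l^2`.
Twisted system: `M^2 - N^2 = c K^2`, `M^2 - 81 N^2 = c L^2` with `c ∣ 80`.
Every twisted solution with `M N K L ≠ 0`, `gcd(M,N) = gcd(K,L) = 1` gives a solution of (A) whose
`n` is one of `M, N, K, L`.
-/

set_option autoImplicit false

namespace Fermat.Agent.S51H8

/-- The system (A): `m^2 - n^2 = k^2` and `m^2 - 81 n^2 = l^2`. -/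
def SolA (m n k l : ℤ) : Prop := m ^ 2 - n ^ 2 = k ^ 2 ∧ m ^ 2 - 81 * n ^ 2 = l ^ 2

/-- The divisors of `80` in `ℤ`. -/
theorem dvd_eighty_cases (c : ℤ) (hc : c ∣ 80) :
    c = 1 ∨ c = 2 ∨ c = 4 ∨ c = 5 ∨ c = 8 ∨ c = 10 ∨ c = 16 ∨ c = 20 ∨ c = 40 ∨ c = 80 ∨
    c = -1 ∨ c = -2 ∨ c = -4 ∨ c = -5 ∨ c = -8 ∨ c = -10 ∨ c = -16 ∨ c = -20 ∨ c = -40 ∨
    c = -80 := by
  have h1 : c.natAbs ∣ 80 := by
    have := Int.natAbs_dvd_natAbs.mpr hc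
    simpa using this
  have h2 : c.natAbs ∈ Nat.divisors 80 := Nat.mem_divisors.mpr ⟨h1, by norm_num⟩
  have h3 : Nat.divisors 80 = {1, 2, 4, 5, 8, 10, 16, 20, 40, 80} := by decide
  rw [h3] at h2
  simp only [Finset.mem_insert, Finset.mem_singleton] at h2
  rcases Int.natAbs_eq c with h | h <;> rcases h2 with h2 | h2 | h2 | h2 | h2 | h2 | h2 | h2 | h2 | h2 <;>
    rw [h2] at h <;> simp [h]

/-- Parity obstruction modulo `4` for the twisted systems with `c ∈ ±{2, 8, 10, 40}`. -/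
theorem zmod4_obstruction :
    ∀ M N K L : ZMod 4,
      ((M ^ 2 - N ^ 2 = 2 * K ^ 2 ∧ M ^ 2 - 81 * N ^ 2 = 2 * L ^ 2 ∧
          K ^ 2 - L ^ 2 = 0 ∧ 81 * K ^ 2 - L ^ 2 = 0) ∨
        (M ^ 2 - N ^ 2 = 0 ∧ M ^ 2 - 81 * N ^ 2 = 0 ∧
          K ^ 2 - L ^ 2 = 2 * N ^ 2 ∧ 81 * K ^ 2 - L ^ 2 = 2 * M ^ 2)) →
      ¬ (2 * M = 0 ∧ 2 * N = 0) → ¬ (2 * K = 0 ∧ 2 * L = 0) → False := by
  decide

end Fermat.Agent.S51H8
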