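import Fermat.Agent.S51.DescentH8a

/-!
# S51 / P6: height-free descent, part (b): twisted systems give solutions of (A)
-/

set_option autoImplicit false

namespace Fermat.Agent.S51H8

theorem two_mul_cast_zmod4_eq_zero_iff (M : ℤ) : (2 * (M : ZMod 4) = 0) ↔ (2 : ℤ) ∣ M := by
  have h : (2 * (M : ZMod 4)) = ((2 * M : ℤ) : ZMod 4) := by push_cast; ring
  rw [h, ZMod.intCast_zmod_eq_zero_iff_dvd]
  constructor
  · intro h; push_cast at h; omega
  · intro h; push_cast; omega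

theorem not_both_even_of_isCoprime {M N : ℤ} (h : IsCoprime M N) :
    ¬ (2 * (M : ZMod 4) = 0 ∧ 2 * (N : ZMod 4) = 0) := by
  rintro ⟨h1, h2⟩
  rw [two_mul_cast_zmod4_eq_zero_iff] at h1 h2
  have := h.isUnit_of_dvd' h1 h2
  rw [Int.isUnit_iff] at this
  omega

/-- For nonzero integers, `|x| < |x * y|` as soon as `y ≠ 0` and `y` is not a unit. -/
theorem natAbs_lt_natAbs_mul {x y : ℤ} (hx : x ≠ 0) (hy : 2 ≤ y.natAbs) :
    x.natAbs < (x * y).natAbs := by
  rw [Int.natAbs_mul]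
  have hx' : 0 < x.natAbs := Int.natAbs_pos.mpr hx
  nlinarith

theorem two_le_natAbs_mul3 {x y z : ℤ} (hx : x ≠ 0) (hy : y ≠ 0) (hz : z ≠ 0)
    (h : ¬ (x ^ 2 = 1 ∧ y ^ 2 = 1 ∧ z ^ 2 = 1)) : 2 ≤ (x * y * z).natAbs := by
  by_contra hlt
  have hlt : (x * y * z).natAbs < 2 := by omega
  have hx' : 0 < x.natAbs := Int.natAbs_pos.mpr hx
  have hy' : 0 < y.natAbs := Int.natAbs_pos.mpr hy
  have hz' : 0 < z.natAbs := Int.natAbs_pos.mpr hz
  rw [Int.natAbs_mul, Int.natAbs_mul] at hlt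
  have h1 : x.natAbs = 1 := by
    by_contra hne
    have : 2 ≤ x.natAbs := by omega
    have : 2 ≤ x.natAbs * y.natAbs * z.natAbs := by
      calc 2 ≤ x.natAbs := this
        _ = x.natAbs * 1 * 1 := by ring
        _ ≤ x.natAbs * y.natAbs * z.natAbs := by gcongr <;> omega
    omega
  have h2 : y.natAbs = 1 := by
    by_contra hne
    have : 2 ≤ y.natAbs := by omega
    have : 2 ≤ x.natAbs * y.natAbs * z.natAbs := by
      calc 2 ≤ y.natAbs := this
        _ = 1 * y.natAbs * 1 := by ring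
        _ ≤ x.natAbs * y.natAbs * z.natAbs := by gcongr <;> omega
    omega
  have h3 : z.natAbs = 1 := by
    by_contra hne
    have : 2 ≤ z.natAbs := by omega
    have : 2 ≤ x.natAbs * y.natAbs * z.natAbs := by
      calc 2 ≤ z.natAbs := this
        _ = 1 * 1 * z.natAbs := by ring
        _ ≤ x.natAbs * y.natAbs * z.natAbs := by gcongr <;> omega
    omega
  apply h
  refine ⟨?_, ?_, ?_⟩
  · rw [← Int.natAbs_sq, h1]; norm_num
  · rw [← Int.natAbs_sq, h2]; norm_num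
  · rw [← Int.natAbs_sq, h3]; norm_num

section Twisted

variable {M N K L c : ℤ}

/-- In a twisted system the twist divides `80`. -/
theorem twist_dvd_eighty (hMN : IsCoprime M N)
    (h1 : M ^ 2 - N ^ 2 = c * K ^ 2) (h2 : M ^ 2 - 81 * N ^ 2 = c * L ^ 2) : c ∣ 80 := by
  obtain ⟨a, b, hab⟩ : IsCoprime (M ^ 2) (N ^ 2) := hMN.pow
  exact ⟨a * (81 * K ^ 2 - L ^ 2) + b * (K ^ 2 - L ^ 2), by
    linear_combination (-80 : ℤ) * hab + a * (81 * h1 - h2) + b * (h1 - h2)⟩

/-- Parity obstruction: `c ≡ 2 mod 4` with `c * c' = 80`, `c' ≡ 0 mod 4`, or the reverse. -/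
theorem twist_obstruction (hMN : IsCoprime M N) (hKL : IsCoprime K L) (c' : ℤ)
    (h1 : M ^ 2 - N ^ 2 = c * K ^ 2) (h2 : M ^ 2 - 81 * N ^ 2 = c * L ^ 2)
    (h3 : K ^ 2 - L ^ 2 = c' * N ^ 2) (h4 : 81 * K ^ 2 - L ^ 2 = c' * M ^ 2)
    (hc : ((c : ZMod 4) = 2 ∧ (c' : ZMod 4) = 0) ∨ ((c : ZMod 4) = 0 ∧ (c' : ZMod 4) = 2)) :
    False := by
  have e1 := congrArg (Int.cast : ℤ → ZMod 4) h1
  have e2 := congrArg (Int.cast : ℤ → ZMod 4) h2
  have e3 := congrArg (Int.cast : ℤ → ZMod 4) h3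
  have e4 := congrArg (Int.cast : ℤ → ZMod 4) h4
  push_cast at e1 e2 e3 e4
  refine zmod4_obstruction (M : ZMod 4) (N : ZMod 4) (K : ZMod 4) (L : ZMod 4) ?_
    (not_both_even_of_isCoprime hMN) (not_both_even_of_isCoprime hKL)
  rcases hc with ⟨hc, hc'⟩ | ⟨hc, hc'⟩
  · left
    rw [hc] at e1 e2
    rw [hc'] at e3 e4
    exact ⟨e1, e2, by rw [e3]; ring, by rw [e4]; ring⟩
  · right
    rw [hc] at e1 e2
    rw [hc'] at e3 e4
    exact ⟨by rw [e1]; ring, by rw [e2]; ring, e3, e4⟩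

/-- Class `c = e^2`. -/
theorem twisted_class_one (e : ℤ) (hM : M ≠ 0) (hN : N ≠ 0) (hK : K ≠ 0) (hL : L ≠ 0)
    (h1 : M ^ 2 - N ^ 2 = e ^ 2 * K ^ 2) (h2 : M ^ 2 - 81 * N ^ 2 = e ^ 2 * L ^ 2) :
    ∃ m n k l : ℤ, SolA m n k l ∧ n ≠ 0 ∧ n.natAbs < (K * M * N * L).natAbs := by
  refine ⟨M, N, e * K, e * L, ⟨by linear_combination h1, by linear_combination h2⟩, hN, ?_⟩
  have hprod : K * M * N * L = N * (K * M * L) := by ring
  rw [hprod]
  refine natAbs_lt_natAbs_mul hN (two_le_natAbs_mul3 hK hM hL ?_)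
  rintro ⟨hK1, hM1, hL1⟩
  have h80 : 80 * N ^ 2 = 0 := by linear_combination h1 - h2 + e ^ 2 * (hK1 - hL1)
  have : N ^ 2 = 0 := by linarith
  exact hN (pow_eq_zero_iff (two_ne_zero)|>.mp this)

/-- Class `c = -e^2`. -/
theorem twisted_class_neg_one (e : ℤ) (hM : M ≠ 0) (hN : N ≠ 0) (hK : K ≠ 0) (hL : L ≠ 0)
    (h1 : M ^ 2 - N ^ 2 = -e ^ 2 * K ^ 2) (h2 : M ^ 2 - 81 * N ^ 2 = -e ^ 2 * L ^ 2) :
    ∃ m n k l : ℤ, SolA m n k l ∧ n ≠ 0 ∧ n.natAbs < (K * M * N * L).natAbs := by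
  refine ⟨9 * N, M, e * L, 9 * e * K,
    ⟨by linear_combination -h2, by linear_combination (-81 : ℤ) * h1⟩, hM, ?_⟩
  have hprod : K * M * N * L = M * (K * N * L) := by ring
  rw [hprod]
  refine natAbs_lt_natAbs_mul hM (two_le_natAbs_mul3 hK hN hL ?_)
  rintro ⟨hK1, hN1, hL1⟩
  have h80 : (80 : ℤ) = 0 := by linear_combination h1 - h2 - e ^ 2 * (hK1 - hL1) - 80 * hN1
  norm_num at h80

/-- Class `c = 5 e^2`, written with `f = 4 / e`. -/
theorem twisted_class_five (f : ℤ) (hM : M ≠ 0) (hN : N ≠ 0) (hK : K ≠ 0) (hL : L ≠ 0)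
    (h3 : K ^ 2 - L ^ 2 = f ^ 2 * N ^ 2) (h4 : 81 * K ^ 2 - L ^ 2 = f ^ 2 * M ^ 2) :
    ∃ m n k l : ℤ, SolA m n k l ∧ n ≠ 0 ∧ n.natAbs < (K * M * N * L).natAbs := by
  refine ⟨9 * K, L, f * M, 9 * f * N,
    ⟨by linear_combination h4, by linear_combination (81 : ℤ) * h3⟩, hL, ?_⟩
  have hprod : K * M * N * L = L * (K * M * N) := by ring
  rw [hprod]
  refine natAbs_lt_natAbs_mul hL (two_le_natAbs_mul3 hK hM hN ?_)
  rintro ⟨hK1, hM1, hN1⟩
  have h80 : (80 : ℤ) = 0 := by linear_combination h4 - h3 + f ^ 2 * (hM1 - hN1) - 80 * hK1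
  norm_num at h80

/-- Class `c = -5 e^2`, written with `f = 4 / e`. -/
theorem twisted_class_neg_five (f : ℤ) (hM : M ≠ 0) (hN : N ≠ 0) (hK : K ≠ 0) (hL : L ≠ 0)
    (h3 : L ^ 2 - K ^ 2 = f ^ 2 * N ^ 2) (h4 : L ^ 2 - 81 * K ^ 2 = f ^ 2 * M ^ 2) :
    ∃ m n k l : ℤ, SolA m n k l ∧ n ≠ 0 ∧ n.natAbs < (K * M * N * L).natAbs := by
  refine ⟨L, K, f * N, f * M,
    ⟨by linear_combination h3, by linear_combination h4⟩, hK, ?_⟩
  have hprod : K * M * N * L = K * (M * N * L) := by ring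
  rw [hprod]
  refine natAbs_lt_natAbs_mul hK (two_le_natAbs_mul3 hM hN hL ?_)
  rintro ⟨hM1, hN1, hL1⟩
  have h80 : 80 * K ^ 2 = 0 := by linear_combination h3 - h4 + f ^ 2 * (hN1 - hM1)
  have : K ^ 2 = 0 := by linarith
  exact hK (pow_eq_zero_iff (two_ne_zero)|>.mp this)

/-- **Twisted systems give solutions of (A).** -/
theorem twisted_to_solA (hMN : IsCoprime M N) (hKL : IsCoprime K L)
    (hM : M ≠ 0) (hN : N ≠ 0) (hK : K ≠ 0) (hL : L ≠ 0)
    (h1 : M ^ 2 - N ^ 2 = c * K ^ 2) (h2 : M ^ 2 - 81 * N ^ 2 = c * L ^ 2) :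
    ∃ m n k l : ℤ, SolA m n k l ∧ n ≠ 0 ∧ n.natAbs < (K * M * N * L).natAbs := by
  have hc := twist_dvd_eighty hMN h1 h2
  rcases dvd_eighty_cases c hc with rfl | rfl | rfl | rfl | rfl | rfl | rfl | rfl | rfl | rfl |
    rfl | rfl | rfl | rfl | rfl | rfl | rfl | rfl | rfl | rfl
  · exact twisted_class_one 1 hM hN hK hL (by linear_combination h1) (by linear_combination h2)
  · exact (twist_obstruction hMN hKL (40) h1 h2 (by linarith) (by linarith) (by decide)).elim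
  · exact twisted_class_one 2 hM hN hK hL (by linear_combination h1) (by linear_combination h2)
  · exact twisted_class_five 4 hM hN hK hL (by linarith) (by linarith)
  · exact (twist_obstruction hMN hKL (10) h1 h2 (by linarith) (by linarith) (by decide)).elim
  · exact (twist_obstruction hMN hKL (8) h1 h2 (by linarith) (by linarith) (by decide)).elim
  · exact twisted_class_one 4 hM hN hK hL (by linear_combination h1) (by linear_combination h2)
  · exact twisted_class_five 2 hM hN hK hL (by linarith) (by linarith)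
  · exact (twist_obstruction hMN hKL (2) h1 h2 (by linarith) (by linarith) (by decide)).elim
  · exact twisted_class_five 1 hM hN hK hL (by linarith) (by linarith)
  · exact twisted_class_neg_one 1 hM hN hK hL (by linear_combination h1) (by linear_combination h2)
  · exact (twist_obstruction hMN hKL (-40) h1 h2 (by linarith) (by linarith) (by decide)).elim
  · exact twisted_class_neg_one 2 hM hN hK hL (by linear_combination h1) (by linear_combination h2)
  · exact twisted_class_neg_five 4 hM hN hK hL (by linarith) (by linarith)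
  · exact (twist_obstruction hMN hKL (-10) h1 h2 (by linarith) (by linarith) (by decide)).elim
  · exact (twist_obstruction hMN hKL (-8) h1 h2 (by linarith) (by linarith) (by decide)).elim
  · exact twisted_class_neg_one 4 hM hN hK hL (by linear_combination h1) (by linear_combination h2)
  · exact twisted_class_neg_five 2 hM hN hK hL (by linarith) (by linarith)
  · exact (twist_obstruction hMN hKL (-2) h1 h2 (by linarith) (by linarith) (by decide)).elim
  · exact twisted_class_neg_five 1 hM hN hK hL (by linarith) (by linarith)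

end Twisted

end Fermat.Agent.S51H8
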