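import Fermat.Agent.S51.DescentH8b

/-!
# S51 / P6: height-free descent, part (c): Theorem A

`m^2 - n^2 = k^2`, `m^2 - 81 n^2 = l^2` has no integer solution with `n ≠ 0`
(strong induction on `|n|`).
-/

set_option autoImplicit false

namespace Fermat.Agent.S51H8

/-- A positive integer which is `±` a square is a square of a positive integer. -/
theorem pos_sq_of_sq_or_neg_sq {A a0 : ℤ} (hA : 0 < A) (h : A = a0 ^ 2 ∨ A = -a0 ^ 2) :
    ∃ u : ℤ, 0 < u ∧ A = u ^ 2 := by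
  rcases h with h | h
  · refine ⟨|a0|, ?_, by rw [sq_abs]; exact h⟩
    apply abs_pos.mpr
    rintro rfl
    simp at h
    omega
  · exfalso
    have : 0 ≤ a0 ^ 2 := sq_nonneg _
    omega

/-- Coprime positive integers whose product is a square are squares of coprime positive
integers. -/
theorem sq_sq_of_coprime_mul_eq_sq {A B x : ℤ} (hA : 0 < A) (hB : 0 < B) (hcop : IsCoprime A B)
    (h : A * B = x ^ 2) :
    ∃ u v : ℤ, 0 < u ∧ 0 < v ∧ IsCoprime u v ∧ A = u ^ 2 ∧ B = v ^ 2 := by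
  obtain ⟨u0, hu0⟩ := Int.sq_of_isCoprime hcop h
  obtain ⟨v0, hv0⟩ := Int.sq_of_isCoprime hcop.symm (by rw [mul_comm]; exact h)
  obtain ⟨u, hu, hAu⟩ := pos_sq_of_sq_or_neg_sq hA hu0
  obtain ⟨v, hv, hBv⟩ := pos_sq_of_sq_or_neg_sq hB hv0
  refine ⟨u, v, hu, hv, ?_, hAu, hBv⟩
  rw [hAu, hBv] at hcop
  exact (IsCoprime.pow_iff (by norm_num) (by norm_num)).mp hcop

/-- Parametrisation of `m^2 - x^2 = k^2` with `m` odd, `gcd(m, k) = 1`:
`m + k = a u^2`, `m - k = a v^2` with `a = 1` (`x` odd) or `a = 2` (`x` even). -/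
theorem param_of_sq_sub_sq {m x k : ℤ} (hm : 0 < m) (hx : x ≠ 0) (hodd : Odd m)
    (hcop : IsCoprime m k) (heq : m ^ 2 - x ^ 2 = k ^ 2) :
    ∃ a u v : ℤ, ((a = 1 ∧ Odd x) ∨ (a = 2 ∧ Even x)) ∧ 0 < u ∧ 0 < v ∧ IsCoprime u v ∧
      m + k = a * u ^ 2 ∧ m - k = a * v ^ 2 := by
  have hx2 : 0 < x ^ 2 := by positivity
  have hA : 0 < m + k := by
    by_contra h
    have h' : m + k ≤ 0 := not_lt.mp h
    nlinarith
  have hB : 0 < m - k := by
    by_contra h
    have h' : m - k ≤ 0 := not_lt.mp h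
    nlinarith
  obtain ⟨a, b, hab⟩ := hcop
  rcases Int.even_or_odd x with hxe | hxo
  · -- `x` even, `k` odd
    have hk2 : Odd (k ^ 2) := by
      rw [← heq]
      exact (hodd.pow).sub_even (Even.pow_of_ne_zero hxe two_ne_zero)
    have hko : Odd k := by
      rcases Int.even_or_odd k with hke | hko
      · exact absurd (Even.pow_of_ne_zero hke two_ne_zero) (Int.not_even_iff_odd.mpr hk2)
      · exact hko
    obtain ⟨m', rfl⟩ := hodd
    obtain ⟨k', rfl⟩ := hko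
    obtain ⟨x', hx'⟩ := hxe
    have hcop' : IsCoprime (m' + k' + 1) (m' - k') :=
      ⟨a + b, a - b, by linear_combination hab⟩
    have hprod : (m' + k' + 1) * (m' - k') = x' ^ 2 := by
      have h4 : 4 * ((m' + k' + 1) * (m' - k')) = 4 * x' ^ 2 := by
        rw [hx'] at heq
        linear_combination heq
      exact mul_left_cancel₀ (by norm_num) h4
    obtain ⟨u, v, hu, hv, huv, hAu, hBv⟩ :=
      sq_sq_of_coprime_mul_eq_sq (by linarith) (by linarith) hcop' hprod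
    refine ⟨2, u, v, Or.inr ⟨rfl, ⟨x', hx'⟩⟩, hu, hv, huv, by linear_combination 2 * hAu,
      by linear_combination 2 * hBv⟩
  · -- `x` odd, `k` even
    have hk2 : Even (k ^ 2) := by
      rw [← heq]
      exact (hodd.pow).sub_odd (hxo.pow)
    have hke : Even k := by
      rcases Int.even_or_odd k with hke | hko
      · exact hke
      · exact absurd hk2 (Int.not_even_iff_odd.mpr hko.pow)
    have hAodd : Odd (m + k) := hodd.add_even hke
    obtain ⟨t, ht⟩ := hAodd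
    have hcop' : IsCoprime (m + k) (m - k) :=
      ⟨1 - t * (a + b), -t * (a - b), by linear_combination (-2 * t) * hab + ht⟩
    have hprod : (m + k) * (m - k) = x ^ 2 := by linear_combination heq
    obtain ⟨u, v, hu, hv, huv, hAu, hBv⟩ := sq_sq_of_coprime_mul_eq_sq hA hB hcop' hprod
    exact ⟨1, u, v, Or.inl ⟨rfl, hxo⟩, hu, hv, huv, by linear_combination hAu,
      by linear_combination hBv⟩


/-- Core of the descent step, when `3 ∣ S`. -/
theorem descent_core_of_three_dvd {u v S T : ℤ} (hu : 0 < u) (hv : 0 < v)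
    (hS : 0 < S) (hT : 0 < T) (huv : IsCoprime u v) (hST : IsCoprime S T)
    (hsum : u ^ 2 + v ^ 2 = S ^ 2 + T ^ 2) (hprod : S * T = 9 * (u * v)) (h3 : (3 : ℤ) ∣ S) :
    ∃ m n k l : ℤ, SolA m n k l ∧ n ≠ 0 ∧ n.natAbs < (u * v).natAbs := by
  have h3T : IsCoprime (3 : ℤ) T := IsCoprime.of_isCoprime_of_dvd_left hST h3
  have h9T : IsCoprime (9 : ℤ) T := by
    have := h3T.pow_left (m := 2)
    norm_num at this
    exact this
  have h9S : (9 : ℤ) ∣ S := h9T.dvd_of_dvd_mul_right ⟨u * v, hprod⟩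
  obtain ⟨S', rfl⟩ := h9S
  have hprod' : S' * T = u * v := by
    have : 9 * (S' * T) = 9 * (u * v) := by linear_combination hprod
    exact mul_left_cancel₀ (by norm_num) this
  obtain ⟨u₁, u₂, ⟨v₁, hv₁⟩, ⟨v₂, hv₂⟩, hu12⟩ :=
    exists_dvd_and_dvd_of_dvd_mul (show u ∣ S' * T from ⟨v, hprod'⟩)
  subst hv₁ hv₂ hu12
  have hu₁u₂ : u₁ * u₂ ≠ 0 := hu.ne'
  have hu₁ : u₁ ≠ 0 := left_ne_zero_of_mul hu₁u₂
  have hu₂ : u₂ ≠ 0 := right_ne_zero_of_mul hu₁u₂
  have hv12 : v = v₁ * v₂ := by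
    have : (u₁ * u₂) * v = (u₁ * u₂) * (v₁ * v₂) := by linear_combination -hprod'
    exact mul_left_cancel₀ hu₁u₂ this
  subst hv12
  have hv₁v₂ : v₁ * v₂ ≠ 0 := hv.ne'
  have hv₁ : v₁ ≠ 0 := left_ne_zero_of_mul hv₁v₂
  have hv₂ : v₂ ≠ 0 := right_ne_zero_of_mul hv₁v₂
  have hMN : IsCoprime u₂ v₁ := (huv.of_mul_left_right).of_mul_right_left
  have hKL : IsCoprime u₁ v₂ := (huv.of_mul_left_left).of_mul_right_right
  have hkey : u₁ ^ 2 * (u₂ ^ 2 - 81 * v₁ ^ 2) = v₂ ^ 2 * (u₂ ^ 2 - v₁ ^ 2) := by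
    linear_combination hsum
  have hKL2 : IsCoprime (u₁ ^ 2) (v₂ ^ 2) := hKL.pow
  have hdvd : u₁ ^ 2 ∣ u₂ ^ 2 - v₁ ^ 2 := hKL2.dvd_of_dvd_mul_left ⟨u₂ ^ 2 - 81 * v₁ ^ 2, hkey.symm⟩
  obtain ⟨c, hc⟩ := hdvd
  have h1 : u₂ ^ 2 - v₁ ^ 2 = c * u₁ ^ 2 := by rw [hc]; ring
  have h2 : u₂ ^ 2 - 81 * v₁ ^ 2 = c * v₂ ^ 2 := by
    have : u₁ ^ 2 * (u₂ ^ 2 - 81 * v₁ ^ 2) = u₁ ^ 2 * (c * v₂ ^ 2) := by
      rw [hkey, hc]; ring
    exact mul_left_cancel₀ (pow_ne_zero 2 hu₁) this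
  obtain ⟨m, n, k, l, hsol, hn, hlt⟩ := twisted_to_solA hMN hKL hu₂ hv₁ hu₁ hv₂ h1 h2
  refine ⟨m, n, k, l, hsol, hn, ?_⟩
  have : u₁ * u₂ * v₁ * v₂ = u₁ * u₂ * (v₁ * v₂) := by ring
  rw [← this]
  exact hlt

/-- Core of the descent step. -/
theorem descent_core {u v S T : ℤ} (hu : 0 < u) (hv : 0 < v)
    (hS : 0 < S) (hT : 0 < T) (huv : IsCoprime u v) (hST : IsCoprime S T)
    (hsum : u ^ 2 + v ^ 2 = S ^ 2 + T ^ 2) (hprod : S * T = 9 * (u * v)) :
    ∃ m n k l : ℤ, SolA m n k l ∧ n ≠ 0 ∧ n.natAbs < (u * v).natAbs := by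
  have h3 : (3 : ℤ) ∣ S * T := ⟨3 * (u * v), by linear_combination hprod⟩
  rcases (Int.prime_three).dvd_or_dvd h3 with h | h
  · exact descent_core_of_three_dvd hu hv hS hT huv hST hsum hprod h
  · exact descent_core_of_three_dvd hu hv hT hS huv hST.symm (by linear_combination hsum)
      (by linear_combination hprod) h


theorem zmod4_odd_of_sq_sub_sq :
    ∀ m n k : ZMod 4, m ^ 2 - n ^ 2 = k ^ 2 → 2 * m = 0 → ¬ (2 * n = 0) → False := by
  decide

theorem zmod3_of_sq_sub_sq :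
    ∀ m n k : ZMod 3, m ^ 2 - n ^ 2 = k ^ 2 → m = 0 → n = 0 := by
  decide

/-- In a primitive solution of `m^2 - n^2 = k^2`, `m` is odd. -/
theorem odd_of_sq_sub_sq {m n k : ℤ} (hmn : IsCoprime m n) (h : m ^ 2 - n ^ 2 = k ^ 2) :
    Odd m := by
  rw [← Int.not_even_iff_odd]
  intro hme
  have e := congrArg (Int.cast : ℤ → ZMod 4) h
  push_cast at e
  have hm2 : 2 * (m : ZMod 4) = 0 :=
    (two_mul_cast_zmod4_eq_zero_iff m).mpr (even_iff_two_dvd.mp hme)
  exact zmod4_odd_of_sq_sub_sq _ _ _ e hm2 (fun hn2 => not_both_even_of_isCoprime hmn ⟨hm2, hn2⟩)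

/-- In a primitive solution of `m^2 - n^2 = k^2`, `3 ∤ m`. -/
theorem not_three_dvd_of_sq_sub_sq {m n k : ℤ} (hmn : IsCoprime m n)
    (h : m ^ 2 - n ^ 2 = k ^ 2) : ¬ (3 : ℤ) ∣ m := by
  intro h3
  have e := congrArg (Int.cast : ℤ → ZMod 3) h
  push_cast at e
  have hm0 : (m : ZMod 3) = 0 := (ZMod.intCast_zmod_eq_zero_iff_dvd m 3).mpr (by exact_mod_cast h3)
  have hn0 := zmod3_of_sq_sub_sq _ _ _ e hm0
  have h3n : (3 : ℤ) ∣ n := by
    have := (ZMod.intCast_zmod_eq_zero_iff_dvd n 3).mp hn0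
    exact_mod_cast this
  have := hmn.isUnit_of_dvd' h3 h3n
  rw [Int.isUnit_iff] at this
  omega

/-- The descent step for primitive solutions with `m > 0`. -/
theorem descent_step_coprime {m n k l : ℤ} (h : SolA m n k l) (hm : 0 < m) (hn : n ≠ 0)
    (hmn : IsCoprime m n) :
    ∃ m' n' k' l' : ℤ, SolA m' n' k' l' ∧ n' ≠ 0 ∧ n'.natAbs < n.natAbs := by
  obtain ⟨hk, hl⟩ := h
  have hodd : Odd m := odd_of_sq_sub_sq hmn hk
  have h3m : ¬ (3 : ℤ) ∣ m := not_three_dvd_of_sq_sub_sq hmn hk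
  have hmn2 : IsCoprime m (n ^ 2) := hmn.pow_right
  have hmk : IsCoprime m k := by
    have h1 : IsCoprime m (k ^ 2) := by
      have : k ^ 2 = -(n ^ 2) + m * m := by linear_combination -hk
      rw [this]
      exact (IsCoprime.add_mul_left_right_iff).mpr hmn2.neg_right
    exact (IsCoprime.pow_right_iff (by norm_num)).mp h1
  have hm3 : IsCoprime m 3 :=
    ((Int.prime_three).irreducible.coprime_iff_not_dvd.mpr h3m).symm
  have hml : IsCoprime m l := by
    have h81 : IsCoprime m (81 * n ^ 2) := by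
      have h9 : IsCoprime m ((3 : ℤ) ^ 4) := hm3.pow_right
      norm_num at h9
      exact h9.mul_right hmn2
    have h1 : IsCoprime m (l ^ 2) := by
      have : l ^ 2 = -(81 * n ^ 2) + m * m := by linear_combination -hl
      rw [this]
      exact (IsCoprime.add_mul_left_right_iff).mpr h81.neg_right
    exact (IsCoprime.pow_right_iff (by norm_num)).mp h1
  obtain ⟨a, u, v, ha, hu, hv, huv, hmk1, hmk2⟩ := param_of_sq_sub_sq hm hn hodd hmk hk
  have h9n : (9 * n) ≠ 0 := mul_ne_zero (by norm_num) hn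
  obtain ⟨a', S, T, ha', hS, hT, hST, hml1, hml2⟩ :=
    param_of_sq_sub_sq hm h9n hodd hml (by linear_combination hl)
  have haa' : a' = a := by
    rcases ha with ⟨rfl, hno⟩ | ⟨rfl, hne⟩ <;> rcases ha' with ⟨rfl, hno'⟩ | ⟨rfl, hne'⟩
    · rfl
    · exfalso
      obtain ⟨r, hr⟩ := hno
      obtain ⟨r', hr'⟩ := hne'
      omega
    · exfalso
      obtain ⟨r, hr⟩ := hne
      obtain ⟨r', hr'⟩ := hno'
      omega
    · rfl
  subst haa'
  have ha0 : 0 < a' := by rcases ha with ⟨rfl, -⟩ | ⟨rfl, -⟩ <;> norm_num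
  have hsum : u ^ 2 + v ^ 2 = S ^ 2 + T ^ 2 := by
    have : a' * (u ^ 2 + v ^ 2) = a' * (S ^ 2 + T ^ 2) := by
      linear_combination -hmk1 - hmk2 + hml1 + hml2
    exact mul_left_cancel₀ ha0.ne' this
  have hn2 : n ^ 2 = (a' * (u * v)) ^ 2 := by
    have : (m + k) * (m - k) = n ^ 2 := by linear_combination hk
    rw [← this, hmk1, hmk2]; ring
  have h81n2 : (9 * n) ^ 2 = (a' * (S * T)) ^ 2 := by
    have : (m + l) * (m - l) = (9 * n) ^ 2 := by linear_combination hl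
    rw [← this, hml1, hml2]; ring
  have hprod : S * T = 9 * (u * v) := by
    have h1 : (a' * (S * T)) ^ 2 = (a' * (9 * (u * v))) ^ 2 := by
      rw [← h81n2]
      have : (9 * n) ^ 2 = 81 * n ^ 2 := by ring
      rw [this, hn2]; ring
    have h2 : a' * (S * T) = a' * (9 * (u * v)) := by
      have hp1 : 0 ≤ a' * (S * T) := by positivity
      have hp2 : 0 ≤ a' * (9 * (u * v)) := by positivity
      exact (pow_left_inj₀ hp1 hp2 two_ne_zero).mp h1
    exact mul_left_cancel₀ ha0.ne' h2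
  obtain ⟨m', n', k', l', hsol, hn', hlt⟩ := descent_core hu hv hS hT huv hST hsum hprod
  refine ⟨m', n', k', l', hsol, hn', lt_of_lt_of_le hlt ?_⟩
  have hnabs : n.natAbs = (a' * (u * v)).natAbs := Int.natAbs_eq_natAbs_iff.mpr (by
    rcases sq_eq_sq_iff_eq_or_eq_neg.mp hn2 with h | h
    · exact Or.inl h
    · exact Or.inr h)
  have e1 : (a' * (u * v)).natAbs = a'.natAbs * (u * v).natAbs := Int.natAbs_mul _ _
  rw [hnabs, e1]
  exact Nat.le_mul_of_pos_left _ (Int.natAbs_pos.mpr ha0.ne')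


/-- The descent step: a solution of (A) with `n ≠ 0` gives one with smaller `|n| ≠ 0`. -/
theorem descent_step {m n k l : ℤ} (h : SolA m n k l) (hn : n ≠ 0) :
    ∃ m' n' k' l' : ℤ, SolA m' n' k' l' ∧ n' ≠ 0 ∧ n'.natAbs < n.natAbs := by
  have hm0 : m ≠ 0 := by
    rintro rfl
    have h1 := h.1
    have : n ^ 2 = 0 := by nlinarith [sq_nonneg n, sq_nonneg k]
    exact hn (pow_eq_zero_iff two_ne_zero |>.mp this)
  by_cases hg : Int.gcd m n = 1
  · have hmn : IsCoprime m n := Int.isCoprime_iff_gcd_eq_one.mpr hg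
    have habs : SolA |m| n k l := by
      refine ⟨?_, ?_⟩
      · rw [sq_abs]; exact h.1
      · rw [sq_abs]; exact h.2
    have hmn' : IsCoprime |m| n := by
      rcases abs_choice m with h' | h' <;> rw [h']
      · exact hmn
      · exact hmn.neg_left
    exact descent_step_coprime habs (abs_pos.mpr hm0) hn hmn'
  · -- divide by the gcd
    obtain ⟨g, hgdef⟩ : ∃ g : ℤ, g = (Int.gcd m n : ℤ) := ⟨_, rfl⟩
    have hgpos : 0 < g := by
      have : 0 < Int.gcd m n := Int.gcd_pos_of_ne_zero_left _ hm0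
      rw [hgdef]
      exact_mod_cast this
    have hg2 : 2 ≤ g := by
      have : 0 < Int.gcd m n := Int.gcd_pos_of_ne_zero_left _ hm0
      have : 2 ≤ Int.gcd m n := by omega
      rw [hgdef]
      exact_mod_cast this
    obtain ⟨m₁, hm₁⟩ : g ∣ m := hgdef ▸ Int.gcd_dvd_left m n
    obtain ⟨n₁, hn₁⟩ : g ∣ n := hgdef ▸ Int.gcd_dvd_right m n
    have hk : g ∣ k := by
      have : g ^ 2 ∣ k ^ 2 := ⟨m₁ ^ 2 - n₁ ^ 2, by rw [← h.1, hm₁, hn₁]; ring⟩
      exact (Int.pow_dvd_pow_iff two_ne_zero).mp this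
    have hl : g ∣ l := by
      have : g ^ 2 ∣ l ^ 2 := ⟨m₁ ^ 2 - 81 * n₁ ^ 2, by rw [← h.2, hm₁, hn₁]; ring⟩
      exact (Int.pow_dvd_pow_iff two_ne_zero).mp this
    obtain ⟨k₁, hk₁⟩ := hk
    obtain ⟨l₁, hl₁⟩ := hl
    have hg2ne : g ^ 2 ≠ 0 := pow_ne_zero 2 hgpos.ne'
    have hn₁0 : n₁ ≠ 0 := by
      rintro rfl
      apply hn
      rw [hn₁]; ring
    refine ⟨m₁, n₁, k₁, l₁, ⟨?_, ?_⟩, hn₁0, ?_⟩
    · have : g ^ 2 * (m₁ ^ 2 - n₁ ^ 2) = g ^ 2 * k₁ ^ 2 := by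
        have := h.1
        rw [hm₁, hn₁, hk₁] at this
        linear_combination this
      exact mul_left_cancel₀ hg2ne this
    · have : g ^ 2 * (m₁ ^ 2 - 81 * n₁ ^ 2) = g ^ 2 * l₁ ^ 2 := by
        have := h.2
        rw [hm₁, hn₁, hl₁] at this
        linear_combination this
      exact mul_left_cancel₀ hg2ne this
    · rw [hn₁, Int.natAbs_mul]
      have h1 : 0 < n₁.natAbs := Int.natAbs_pos.mpr hn₁0
      have h2 : 2 ≤ g.natAbs := by omega
      nlinarith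

/-- **Theorem A**: the system `m^2 - n^2 = k^2`, `m^2 - 81 n^2 = l^2` has no integer solution
with `n ≠ 0`. -/
theorem solA_n_eq_zero {m n k l : ℤ} (h : SolA m n k l) : n = 0 := by
  by_contra hn
  have key : ∀ N : ℕ, ∀ m n k l : ℤ, SolA m n k l → n ≠ 0 → n.natAbs = N → False := by
    intro N
    induction N using Nat.strong_induction_on with
    | _ N ih =>
      intro m n k l h hn hN
      obtain ⟨m', n', k', l', h', hn', hlt⟩ := descent_step h hn
      exact ih n'.natAbs (hN ▸ hlt) m' n' k' l' h' hn' rfl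
  exact key _ m n k l h hn rfl

end Fermat.Agent.S51H8
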