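import Fermat.Agent.S51.DescentH8c
import Fermat.Agent.S51.EB

/-!
# S51 / P6: rational points of `y^2 = x (x - 1) (x - 81)` and of `Y^2 = X (X + 9) (X - 16)`

From Theorem A (`solA_n_eq_zero`):
* no rational `r₁ r₂ r₃` with `r₁^2 - 1 = r₂^2`, `r₁^2 - 81 = r₃^2`;
* (EC) `y^2 = x (x - 1) (x - 81)` over `ℚ` forces `y = 0` (doubling: `x(2P) = r₁^2` with
  `r₁ = (x^2 - 81) / (2 y)`, and `x(2P) - 1`, `x(2P) - 81` are the squares of
  `(x^2 - 2 x + 81) / (2 y)`, `(x^2 - 162 x + 81) / (2 y)`);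
* (EB) `Y^2 = X (X + 9) (X - 16)` over `ℚ` forces `X ∈ {0, -9, 16, 36, -4}`.
-/

set_option autoImplicit false

namespace Fermat.Agent.S51H8

/-- Rational form of Theorem A. -/
theorem no_rat_concordant (r₁ r₂ r₃ : ℚ) (h1 : r₁ ^ 2 - 1 = r₂ ^ 2) (h2 : r₁ ^ 2 - 81 = r₃ ^ 2) :
    False := by
  have hd1 : (r₁.den : ℚ) ≠ 0 := by exact_mod_cast r₁.den_nz
  have hd2 : (r₂.den : ℚ) ≠ 0 := by exact_mod_cast r₂.den_nz
  have hd3 : (r₃.den : ℚ) ≠ 0 := by exact_mod_cast r₃.den_nz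
  have e1 : r₁ = (r₁.num : ℚ) / (r₁.den : ℚ) := (Rat.num_div_den r₁).symm
  have e2 : r₂ = (r₂.num : ℚ) / (r₂.den : ℚ) := (Rat.num_div_den r₂).symm
  have e3 : r₃ = (r₃.num : ℚ) / (r₃.den : ℚ) := (Rat.num_div_den r₃).symm
  have hsol : SolA (r₁.num * r₂.den * r₃.den) ((r₁.den : ℤ) * r₂.den * r₃.den)
      (r₂.num * r₁.den * r₃.den) (r₃.num * r₁.den * r₂.den) := by
    constructor
    · have : ((r₁.num * r₂.den * r₃.den : ℤ) : ℚ) ^ 2 - (((r₁.den : ℤ) * r₂.den * r₃.den : ℤ) : ℚ) ^ 2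
          = ((r₂.num * r₁.den * r₃.den : ℤ) : ℚ) ^ 2 := by
        push_cast
        rw [e1, e2] at h1
        field_simp at h1
        linear_combination (r₃.den : ℚ) ^ 2 * h1
      exact_mod_cast this
    · have : ((r₁.num * r₂.den * r₃.den : ℤ) : ℚ) ^ 2
            - 81 * (((r₁.den : ℤ) * r₂.den * r₃.den : ℤ) : ℚ) ^ 2
          = ((r₃.num * r₁.den * r₂.den : ℤ) : ℚ) ^ 2 := by
        push_cast
        rw [e1, e3] at h2
        field_simp at h2
        linear_combination (r₂.den : ℚ) ^ 2 * h2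
      exact_mod_cast this
  have hn := solA_n_eq_zero hsol
  have h1' : (r₁.den : ℤ) ≠ 0 := by exact_mod_cast r₁.den_nz
  have h2' : (r₂.den : ℤ) ≠ 0 := by exact_mod_cast r₂.den_nz
  have h3' : (r₃.den : ℤ) ≠ 0 := by exact_mod_cast r₃.den_nz
  exact mul_ne_zero (mul_ne_zero h1' h2') h3' hn

/-- (EC): the only rational points of `y^2 = x (x - 1) (x - 81)` are the 2-torsion points. -/
theorem EC_descent_h8 : ∀ x y : ℚ, y ^ 2 = x * (x - 1) * (x - 81) → y = 0 := by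
  intro x y h
  by_contra hy
  have h2y : (2 * y) ≠ 0 := mul_ne_zero two_ne_zero hy
  refine no_rat_concordant ((x ^ 2 - 81) / (2 * y)) ((x ^ 2 - 2 * x + 81) / (2 * y))
    ((x ^ 2 - 162 * x + 81) / (2 * y)) ?_ ?_
  · field_simp
    linear_combination (-4 : ℚ) * h
  · field_simp
    linear_combination (-324 : ℚ) * h

/-- (EB): the rational points of `Y^2 = X (X + 9) (X - 16)` (15a1) are the eight torsion
points. -/
theorem EB_points_h8 : ∀ X Y : ℚ, Y ^ 2 = X * (X + 9) * (X - 16) →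
    X = 0 ∨ X = -9 ∨ X = 16 ∨ X = 36 ∨ X = -4 :=
  Fermat.Agent.S51.EB_points_of_EC EC_descent_h8

end Fermat.Agent.S51H8
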