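import Mathlib
import Fermat.Prelude.Def_FLTPrelim_Modularity

/-!
# S51, final step (F): the four non-cuspidal rational points of `X₀(15)` are not semistable

With `t` the `X₀(3)`-Hauptmodul of the curve (so that `c₄³ t = (t+27)(t+3)³ Δ`), the four
non-cuspidal rational points of `X₀(15)` have `t ∈ {-2, -32, -729/2, -729/32}`.  For an integral
model with `gcd(c₄, Δ) = 1` (semistability) each of these values forces `5 ∣ c₄` and `5 ∣ Δ`.
-/

namespace Fermat.Agent.S51.Final5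

/-- Arithmetic core: if `a * c ^ 3 = b * D` with `5 ∤ a`, `5 ∣ b`, `125 ∤ b`,
then `5 ∣ c` and `5 ∣ D`. -/
theorem five_dvd_both {a b c D : ℤ} (h : a * c ^ 3 = b * D) (ha : ¬ (5 : ℤ) ∣ a)
    (hb : (5 : ℤ) ∣ b) (hb' : ¬ (125 : ℤ) ∣ b) : (5 : ℤ) ∣ c ∧ (5 : ℤ) ∣ D := by
  have h5 : Prime (5 : ℤ) := by norm_num
  have hc : (5 : ℤ) ∣ c := by
    have h1 : (5 : ℤ) ∣ a * c ^ 3 := by rw [h]; exact Dvd.dvd.mul_right hb D
    rcases h5.dvd_or_dvd h1 with h2 | h2
    · exact absurd h2 ha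
    · exact h5.dvd_of_dvd_pow h2
  refine ⟨hc, ?_⟩
  by_contra hD
  obtain ⟨k, rfl⟩ := hc
  have h125 : (125 : ℤ) ∣ b * D := ⟨a * k ^ 3, by rw [← h]; ring⟩
  have hcop : IsCoprime (125 : ℤ) D := by
    have : IsCoprime (5 : ℤ) D := (Prime.coprime_iff_not_dvd h5).mpr hD
    have h3 : IsCoprime ((5 : ℤ) ^ 3) D := this.pow_left
    norm_num at h3
    exact h3
  exact hb' (hcop.dvd_of_dvd_mul_right h125)

/-- Final step of S51: an integral model with `Δ ≠ 0` that is semistable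
(`p ∣ Δ → p ∤ c₄`) cannot have `X₀(3)`-parameter `t ∈ {-2, -32, -729/2, -729/32}`. -/
theorem not_semistable_of_t (c4 D : ℤ)
    (hss : ∀ p : ℕ, p.Prime → (p : ℤ) ∣ D → ¬ (p : ℤ) ∣ c4)
    (t : ℚ) (ht : t = -2 ∨ t = -32 ∨ t = -729 / 2 ∨ t = -729 / 32)
    (hJ : (c4 : ℚ) ^ 3 * t = (t + 27) * (t + 3) ^ 3 * (D : ℚ)) : False := by
  have key : (5 : ℤ) ∣ c4 ∧ (5 : ℤ) ∣ D := by
    rcases ht with rfl | rfl | rfl | rfl
    · -- t = -2 :  -2 c4^3 = 25 D
      have h : (-2 : ℤ) * c4 ^ 3 = 25 * D := by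
        have : ((-2 : ℤ) * c4 ^ 3 : ℚ) = ((25 * D : ℤ) : ℚ) := by
          push_cast; linear_combination hJ
        exact_mod_cast this
      exact five_dvd_both h (by norm_num) (by norm_num) (by norm_num)
    · -- t = -32 :  -32 c4^3 = 5 * 29^3 D
      have h : (-32 : ℤ) * c4 ^ 3 = (5 * 29 ^ 3) * D := by
        have : ((-32 : ℤ) * c4 ^ 3 : ℚ) = (((5 * 29 ^ 3) * D : ℤ) : ℚ) := by
          push_cast; linear_combination hJ
        exact_mod_cast this
      exact five_dvd_both h (by norm_num) (by norm_num) (by norm_num)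
    · -- t = -729/2 :  -5832 c4^3 = 675 * 723^3 D
      have h : (-5832 : ℤ) * c4 ^ 3 = (675 * 723 ^ 3) * D := by
        have : ((-5832 : ℤ) * c4 ^ 3 : ℚ) = (((675 * 723 ^ 3) * D : ℤ) : ℚ) := by
          push_cast; linear_combination 16 * hJ
        exact_mod_cast this
      exact five_dvd_both h (by norm_num) (by norm_num) (by norm_num)
    · -- t = -729/32 :  729 * 32^3 c4^3 = 135 * 633^3 D
      have h : (729 * 32 ^ 3 : ℤ) * c4 ^ 3 = (135 * 633 ^ 3) * D := by
        have : ((729 * 32 ^ 3 : ℤ) * c4 ^ 3 : ℚ) = (((135 * 633 ^ 3) * D : ℤ) : ℚ) := by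
          push_cast; linear_combination (-(32 : ℚ) ^ 4) * hJ
        exact_mod_cast this
      exact five_dvd_both h (by norm_num) (by norm_num) (by norm_num)
  exact hss 5 (by norm_num) (by exact_mod_cast key.2) (by exact_mod_cast key.1)

/-- Version for a Weierstrass curve over `ℤ`, in terms of the Prelude's `IsSemistableModel`. -/
theorem not_isSemistableModel_of_t (W : WeierstrassCurve ℤ) (hW : W.IsSemistableModel)
    (t : ℚ) (ht : t = -2 ∨ t = -32 ∨ t = -729 / 2 ∨ t = -729 / 32)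
    (hJ : ((W.c₄ : ℤ) : ℚ) ^ 3 * t = (t + 27) * (t + 3) ^ 3 * ((W.Δ : ℤ) : ℚ)) : False :=
  not_semistable_of_t W.c₄ W.Δ hW t ht hJ

/-- The same with the invariants of the base change to `ℚ`. -/
theorem not_isSemistableModel_of_t_map (W : WeierstrassCurve ℤ) (hW : W.IsSemistableModel)
    (t : ℚ) (ht : t = -2 ∨ t = -32 ∨ t = -729 / 2 ∨ t = -729 / 32)
    (hJ : (W.map (Int.castRingHom ℚ)).c₄ ^ 3 * t
      = (t + 27) * (t + 3) ^ 3 * (W.map (Int.castRingHom ℚ)).Δ) : False := by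
  apply not_isSemistableModel_of_t W hW t ht
  simpa [WeierstrassCurve.map_c₄, WeierstrassCurve.map_Δ] using hJ

end Fermat.Agent.S51.Final5

namespace Fermat.Agent.S51.Final5

/-- From the plane model `(**)` of `X₀(15)` in the two modular units `t`, `U` to the Weierstrass
model: `W := U (U² (U-4) t - 160) / 32` satisfies `W² = U (U+1) (9U-16)`. -/
theorem W_sq_of_star {t U : ℚ}
    (h : t ^ 2 * U ^ 5 * (U - 4) = 320 * t * U ^ 3 + 9216 * U + 4096) :
    (U * (U ^ 2 * (U - 4) * t - 160) / 32) ^ 2 = U * (U + 1) * (9 * U - 16) := by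
  linear_combination (U * (U - 4) / 1024) * h

/-- The point `(9U, 9W)` lies on `Y² = X (X+9) (X-16)` (the curve 15a1). -/
theorem on_15a1_of_star {t U : ℚ}
    (h : t ^ 2 * U ^ 5 * (U - 4) = 320 * t * U ^ 3 + 9216 * U + 4096) :
    (9 * (U * (U ^ 2 * (U - 4) * t - 160) / 32)) ^ 2 = (9 * U) * (9 * U + 9) * (9 * U - 16) := by
  linear_combination (81 * U * (U - 4) / 1024) * h

/-- Given the list of rational points of `Y² = X (X+9) (X-16)`, the plane model `(**)` forces
`t ∈ {-2, -32, -729/2, -729/32}`. -/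
theorem t_mem_of_star
    (EB : ∀ X Y : ℚ, Y ^ 2 = X * (X + 9) * (X - 16) →
      X = 0 ∨ X = -9 ∨ X = 16 ∨ X = 36 ∨ X = -4)
    {t U : ℚ} (ht : t ≠ 0)
    (h : t ^ 2 * U ^ 5 * (U - 4) = 320 * t * U ^ 3 + 9216 * U + 4096) :
    t = -2 ∨ t = -32 ∨ t = -729 / 2 ∨ t = -729 / 32 := by
  rcases EB (9 * U) (9 * (U * (U ^ 2 * (U - 4) * t - 160) / 32)) (on_15a1_of_star h)
    with hU | hU | hU | hU | hU
  · -- U = 0 : impossible
    have hU0 : U = 0 := by linarith
    rw [hU0] at h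
    norm_num at h
  · -- U = -1 : (t + 32)^2 = 0
    have hU1 : U = -1 := by linarith
    rw [hU1] at h
    have h2 : (t + 32) ^ 2 = 0 := by linear_combination h / 5
    have h3 : t + 32 = 0 := by simpa using h2
    right; left; linarith
  · -- U = 16/9 : (32 t + 729)^2 = 0
    have hU1 : U = 16 / 9 := by linarith
    rw [hU1] at h
    have h2 : (32 * t + 729) ^ 2 = 0 := by linear_combination (-(531441 : ℚ) / 20480) * h
    have h3 : 32 * t + 729 = 0 := by simpa using h2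
    right; right; right
    linarith
  · -- U = 4 : t = -2
    have hU1 : U = 4 := by linarith
    rw [hU1] at h
    left; linarith
  · -- U = -4/9 : t (2 t + 729) = 0
    have hU1 : U = -4 / 9 := by linarith
    rw [hU1] at h
    have h2 : t * (2 * t + 729) = 0 := by linear_combination ((531441 : ℚ) / 20480) * h
    rcases mul_eq_zero.mp h2 with h3 | h3
    · exact absurd h3 ht
    · right; right; left; linarith

/-- **Endgame of S51.**  Given the rational points of 15a1, a semistable integral model cannot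
carry parameters `t ≠ 0`, `U` with `c₄³ t = (t+27)(t+3)³ Δ` and the `X₀(15)` relation `(**)`. -/
theorem endgame
    (EB : ∀ X Y : ℚ, Y ^ 2 = X * (X + 9) * (X - 16) →
      X = 0 ∨ X = -9 ∨ X = 16 ∨ X = 36 ∨ X = -4)
    (W : WeierstrassCurve ℤ) (hW : W.IsSemistableModel)
    {t U : ℚ} (ht : t ≠ 0)
    (hJ : (W.map (Int.castRingHom ℚ)).c₄ ^ 3 * t
      = (t + 27) * (t + 3) ^ 3 * (W.map (Int.castRingHom ℚ)).Δ)
    (h : t ^ 2 * U ^ 5 * (U - 4) = 320 * t * U ^ 3 + 9216 * U + 4096) : False :=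
  not_isSemistableModel_of_t_map W hW t (t_mem_of_star EB ht h) hJ

end Fermat.Agent.S51.Final5
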