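import Mathlib

/-!
# S51 torsion core: `n`-torsion points versus division polynomials for `n = 3, 5`

For a Weierstrass curve `W` over a field `F` (characteristic zero where needed) we prove, by
explicit computations with the group law:

* `dup_X`            : `x(2P) * Ψ₂Sq(x(P)) = φ₂(x(P))`;
* `three_smul_eq_zero_iff` : `3 • P = 0 ↔ Ψ₃(x(P)) = 0`;
* `five_smul_eq_zero_iff`  : `5 • P = 0 ↔ (preΨ' 5)(x(P)) = 0`;
-/

set_option autoImplicit false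

open Polynomial

namespace Fermat.Agent.S51Torsion

open WeierstrassCurve WeierstrassCurve.Affine

variable {F : Type*} [Field F] (W : WeierstrassCurve F)

/-- `Ψ₂Sq` as a function. -/
def fF (x : F) : F := 4 * x ^ 3 + W.b₂ * x ^ 2 + 2 * W.b₄ * x + W.b₆

/-- The numerator `φ₂` of the duplication formula. -/
def phiF (x : F) : F := x ^ 4 - W.b₄ * x ^ 2 - 2 * W.b₆ * x - W.b₈

/-- `Ψ₃` as a function. -/
def psi3F (x : F) : F := 3 * x ^ 4 + W.b₂ * x ^ 3 + 3 * W.b₄ * x ^ 2 + 3 * W.b₆ * x + W.b₈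

/-- `preΨ₄` as a function. -/
def pre4F (x : F) : F :=
  2 * x ^ 6 + W.b₂ * x ^ 5 + 5 * W.b₄ * x ^ 4 + 10 * W.b₆ * x ^ 3 + 10 * W.b₈ * x ^ 2 +
    (W.b₂ * W.b₈ - W.b₄ * W.b₆) * x + (W.b₄ * W.b₈ - W.b₆ ^ 2)

/-- `Ψ₅` as a function. -/
def psi5F (x : F) : F := pre4F W x * fF W x ^ 2 - psi3F W x ^ 3

lemma eval_Ψ₂Sq (x : F) : W.Ψ₂Sq.eval x = fF W x := by
  simp [WeierstrassCurve.Ψ₂Sq, fF]

lemma eval_Ψ₃ (x : F) : W.Ψ₃.eval x = psi3F W x := by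
  simp [WeierstrassCurve.Ψ₃, psi3F]

lemma eval_preΨ₄ (x : F) : W.preΨ₄.eval x = pre4F W x := by
  simp [WeierstrassCurve.preΨ₄, pre4F]

lemma preΨ'_five : W.preΨ' 5 = W.preΨ₄ * W.Ψ₂Sq ^ 2 - W.Ψ₃ ^ 3 := by
  have h := W.preΨ'_odd 0
  simpa using h

lemma eval_preΨ'_five (x : F) : (W.preΨ' 5).eval x = psi5F W x := by
  rw [preΨ'_five]
  simp [eval_Ψ₂Sq, eval_Ψ₃, eval_preΨ₄, psi5F]

/-! ### Polynomial identities -/

lemma phiF_eq (x : F) : phiF W x = x * fF W x - psi3F W x := by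
  simp only [phiF, fF, psi3F]; ring

lemma ident_N1 (x : F) :
    4 * phiF W x ^ 3 + W.b₂ * phiF W x ^ 2 * fF W x + 2 * W.b₄ * phiF W x * fF W x ^ 2 +
      W.b₆ * fF W x ^ 3 = pre4F W x ^ 2 := by
  simp only [phiF, fF, pre4F, WeierstrassCurve.b₂, WeierstrassCurve.b₄, WeierstrassCurve.b₆,
    WeierstrassCurve.b₈]
  ring

lemma ident_N2 (x : F) :
    phiF W x ^ 4 - W.b₄ * phiF W x ^ 2 * fF W x ^ 2 - 2 * W.b₆ * phiF W x * fF W x ^ 3 -
      W.b₈ * fF W x ^ 4 - x * fF W x * pre4F W x ^ 2 = - (psi3F W x * psi5F W x) := by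
  simp only [phiF, fF, pre4F, psi3F, psi5F, WeierstrassCurve.b₂, WeierstrassCurve.b₄,
    WeierstrassCurve.b₆, WeierstrassCurve.b₈]
  ring

lemma ident_psi3 (x : F) :
    16 * psi3F W x = 2 * fF W x * (24 * x + 2 * W.b₂) - (12 * x ^ 2 + 2 * W.b₂ * x + 2 * W.b₄) ^ 2 := by
  simp only [fF, psi3F, WeierstrassCurve.b₂, WeierstrassCurve.b₄,
    WeierstrassCurve.b₆, WeierstrassCurve.b₈]
  ring

end Fermat.Agent.S51Torsion
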